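import Mathlib.LinearAlgebra.Matrix.Charpoly.Coeff
import Mathlib.LinearAlgebra.Matrix.GeneralLinearGroup.Card
import Mathlib.LinearAlgebra.Matrix.GeneralLinearGroup.Defs
import Mathlib.LinearAlgebra.Matrix.NonsingularInverse
import Mathlib.Tactic.FinCases
import Mathlib.Tactic.LinearCombination

/-!
# The group `GL₂(𝔽₃)`

`GL₂(𝔽₃)` has order `48`.  Its subgroup `quatSubgroup` (determinant one, and trace zero or the
element is `±1`) is a normal quaternion group `Q₈` inside `SL₂(𝔽₃)`, and contains the cyclic group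
`cycFour = ⟨i⟩` of order four and `pmOne = {±1}`.  The cubic extension of `ℚ(√-3)` and the tower of
quadratic extensions above it, used for the automorphic induction of a surjective mod 3
representation, are cut out by these subgroups.
-/

noncomputable section

namespace Fermat.Agent.ResidualThree

open Matrix

local notation "G48" => GL (Fin 2) (ZMod 3)
local notation "M2" => Matrix (Fin 2) (Fin 2) (ZMod 3)

/-- `GL₂(𝔽₃)` as quadruples. -/
def glEquivQuad : G48 ≃
    {t : ZMod 3 × ZMod 3 × ZMod 3 × ZMod 3 // t.1 * t.2.2.2 - t.2.1 * t.2.2.1 ≠ 0} where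
  toFun g := ⟨((g : M2) 0 0, (g : M2) 0 1, (g : M2) 1 0, (g : M2) 1 1), by
    have h := (Matrix.isUnit_iff_isUnit_det _).1 g.isUnit
    rw [det_fin_two] at h
    exact fun e => not_isUnit_zero (e ▸ h)⟩
  invFun t := GeneralLinearGroup.mk'' !![t.1.1, t.1.2.1; t.1.2.2.1, t.1.2.2.2]
    (show IsUnit (!![t.1.1, t.1.2.1; t.1.2.2.1, t.1.2.2.2] : M2).det by
      rw [det_fin_two_of]
      exact .of_mul_eq_one _ ((by decide : ∀ x : ZMod 3, x ≠ 0 → x * x = 1) _ t.2))
  left_inv g := Units.ext (by
    ext i j
    fin_cases i <;> fin_cases j <;> rfl)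
  right_inv t := Subtype.ext rfl

/-- `GL₂(𝔽₃)` has order `48`. -/
theorem card_gl_three : Nat.card G48 = 48 := by
  rw [Nat.card_congr glEquivQuad, Nat.card_eq_fintype_card]
  decide

/-- `SL₂(𝔽₃)` inside `GL₂(𝔽₃)`. -/
def slThree : Subgroup G48 where
  carrier := {g | (g : M2).det = 1}
  one_mem' := by simp
  mul_mem' {g h} hg hh := by
    simp only [Set.mem_ofPred_eq, Units.val_mul, det_mul] at hg hh ⊢
    rw [hg, hh, one_mul]
  inv_mem' {g} hg := by
    simp only [Set.mem_ofPred_eq] at hg ⊢
    rw [Matrix.coe_units_inv, Matrix.det_nonsing_inv, hg, Ring.inverse_one]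

theorem mem_slThree {g : G48} : g ∈ slThree ↔ (g : M2).det = 1 := Iff.rfl

theorem det_eq_one_iff_mem_slThree {g : G48} :
    GeneralLinearGroup.det g = 1 ↔ g ∈ slThree := by
  rw [mem_slThree, Units.ext_iff, GeneralLinearGroup.val_det_apply]; rfl

/-- The determinant of an element of `GL₂(𝔽₃)` is a sign. -/
theorem det_eq_one_or_neg_one (g : G48) : (g : M2).det = 1 ∨ (g : M2).det = -1 :=
  (by decide : ∀ x : ZMod 3, x ≠ 0 → x = 1 ∨ x = -1) _
    ((Matrix.isUnit_iff_isUnit_det _).1 g.isUnit).ne_zero

/-- The predicate defining the quaternion subgroup. -/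
def IsQuat (m : M2) : Prop :=
  m.det = 1 ∧ (m.trace = 0 ∨ m = 1 ∨ m = -1)

/-- The entrywise form of closure of the trace-zero elements under products, up to `±1`. -/
theorem isQuat_aux (a b c a' b' c' : ZMod 3) (h : -a * a - b * c = 1)
    (h' : -a' * a' - b' * c' = 1) :
    (a * a' + b * c' + (c * b' + a * a') = 0) ∨
      (a * a' + b * c' = 1 ∧ a * b' - b * a' = 0 ∧ c * a' - a * c' = 0 ∧ c * b' + a * a' = 1) ∨
      (a * a' + b * c' = -1 ∧ a * b' - b * a' = 0 ∧ c * a' - a * c' = 0 ∧
        c * b' + a * a' = -1) := by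
  revert a b c a' b' c'
  decide

/-- The shape of a matrix of trace zero and determinant one. -/
theorem eq_of_trace_det {m : M2} (ht : m.trace = 0) (hd : m.det = 1) :
    m = !![m 0 0, m 0 1; m 1 0, -m 0 0] ∧ -m 0 0 * m 0 0 - m 0 1 * m 1 0 = 1 := by
  rw [trace_fin_two] at ht
  have e : m 1 1 = -m 0 0 := by linear_combination ht
  refine ⟨?_, ?_⟩
  · ext i j; fin_cases i <;> fin_cases j <;> simp [e]
  · rw [det_fin_two, e] at hd; linear_combination hd

/-- The quaternion condition is stable under products. -/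
theorem IsQuat.mul {m n : M2} (hm : IsQuat m) (hn : IsQuat n) : IsQuat (m * n) := by
  obtain ⟨hmd, hm⟩ := hm
  obtain ⟨hnd, hn⟩ := hn
  refine ⟨by rw [det_mul, hmd, hnd, one_mul], ?_⟩
  rcases hm with hm | rfl | rfl
  · rcases hn with hn | rfl | rfl
    · obtain ⟨em, dm⟩ := eq_of_trace_det hm hmd
      obtain ⟨en, dn⟩ := eq_of_trace_det hn hnd
      rw [em, en]
      rcases isQuat_aux _ _ _ _ _ _ dm dn with h | ⟨h1, h2, h3, h4⟩ | ⟨h1, h2, h3, h4⟩
      · left
        rw [trace_fin_two]
        simp [Matrix.mul_apply, Fin.sum_univ_two]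
        linear_combination h
      · right; left
        ext i j; fin_cases i <;> fin_cases j <;> simp [Matrix.mul_apply, Fin.sum_univ_two]
        · linear_combination h1
        · linear_combination h2
        · linear_combination h3
        · linear_combination h4
      · right; right
        ext i j; fin_cases i <;> fin_cases j <;> simp [Matrix.mul_apply, Fin.sum_univ_two]
        · linear_combination h1
        · linear_combination h2
        · linear_combination h3
        · linear_combination h4
    · exact Or.inl (by rw [mul_one, hm])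
    · exact Or.inl (by rw [mul_neg, mul_one, trace_neg, hm, neg_zero])
  · rw [one_mul]; exact hn
  · rcases hn with hn | rfl | rfl
    · exact Or.inl (by rw [neg_mul, one_mul, trace_neg, hn, neg_zero])
    · exact Or.inr (Or.inr (mul_one _))
    · exact Or.inr (Or.inl (by rw [neg_mul_neg, one_mul]))

/-- The quaternion subgroup, the normal Sylow 2-subgroup of `SL₂(𝔽₃)`. -/
def quatSubgroup : Subgroup G48 where
  carrier := {g | IsQuat (g : M2)}
  one_mem' := ⟨by simp, Or.inr (Or.inl rfl)⟩
  mul_mem' {g h} hg hh := IsQuat.mul hg hh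
  inv_mem' {g} hg := by
    obtain ⟨hd, ht⟩ := hg
    have hd' : ((g⁻¹ : G48) : M2).det = 1 := by
      rw [Matrix.coe_units_inv, Matrix.det_nonsing_inv, hd, Ring.inverse_one]
    refine ⟨hd', ?_⟩
    have e : ((g⁻¹ : G48) : M2) = (g : M2).adjugate := by
      rw [Matrix.coe_units_inv, Matrix.inv_def, hd, Ring.inverse_one, one_smul]
    rw [e, adjugate_fin_two]
    rcases ht with ht | ht | ht
    · refine Or.inl ?_
      rw [trace_fin_two] at ht
      simp [trace_fin_two]
      linear_combination ht
    · refine Or.inr (Or.inl ?_)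
      ext i j; fin_cases i <;> fin_cases j <;> simp [ht]
    · refine Or.inr (Or.inr ?_)
      ext i j; fin_cases i <;> fin_cases j <;> simp [ht]

theorem mem_quatSubgroup {g : G48} :
    g ∈ quatSubgroup ↔
      (g : M2).det = 1 ∧ ((g : M2).trace = 0 ∨ (g : M2) = 1 ∨ (g : M2) = -1) := Iff.rfl

theorem quatSubgroup_le_slThree : quatSubgroup ≤ slThree := fun _ h => h.1

instance quatSubgroup_normal : quatSubgroup.Normal := ⟨fun n hn g => by
  obtain ⟨hd, ht⟩ := mem_quatSubgroup.1 hn
  refine mem_quatSubgroup.2 ⟨by rw [Units.val_mul, Units.val_mul, det_units_conj, hd], ?_⟩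
  rw [Units.val_mul, Units.val_mul]
  rcases ht with ht | ht | ht
  · exact Or.inl (by rw [trace_units_conj, ht])
  · exact Or.inr (Or.inl (by rw [ht, mul_one, Units.mul_inv]))
  · exact Or.inr (Or.inr (by rw [ht, mul_neg, neg_mul, mul_one, Units.mul_inv]))⟩

/-- The central subgroup `{±1}`. -/
def pmOne : Subgroup G48 := Subgroup.zpowers (-1)

theorem mem_pmOne {g : G48} : g ∈ pmOne ↔ g = 1 ∨ g = -1 := by
  constructor
  · rintro ⟨k, rfl⟩
    rcases Int.even_or_odd k with h | h
    · exact Or.inl h.neg_one_zpow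
    · exact Or.inr h.neg_one_zpow
  · rintro (rfl | rfl)
    · exact one_mem _
    · exact Subgroup.mem_zpowers _

theorem neg_one_ne_one_gl : (-1 : G48) ≠ 1 := fun e => absurd (congrArg Units.val e) (by decide)

/-- The element `i = !![0, 1; -1, 0]` of order four. -/
def quatI : G48 :=
  ⟨!![0, 1; -1, 0], !![0, -1; 1, 0], by decide, by decide⟩

/-- A cyclic subgroup of order four of the quaternion subgroup. -/
def cycFour : Subgroup G48 := Subgroup.zpowers quatI

theorem cycFour_le_quat : cycFour ≤ quatSubgroup := by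
  rw [cycFour, Subgroup.zpowers_le, mem_quatSubgroup]
  refine ⟨?_, Or.inl ?_⟩ <;> decide

theorem quatI_sq : quatI * quatI = -1 := Units.ext (by decide)

theorem pmOne_le_cycFour : pmOne ≤ cycFour := by
  rw [pmOne, Subgroup.zpowers_le, ← quatI_sq]
  exact mul_mem (Subgroup.mem_zpowers _) (Subgroup.mem_zpowers _)

/-- Cayley–Hamilton in dimension two. -/
theorem mul_self_trace_det {A : Type*} [CommRing A] (M : Matrix (Fin 2) (Fin 2) A) :
    M * M = M.trace • M - M.det • 1 := by
  ext i j
  fin_cases i <;> fin_cases j <;>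
    simp [Matrix.mul_apply, Fin.sum_univ_two, trace_fin_two, det_fin_two] <;> ring

/-- The cube of a `2 × 2` matrix of determinant one, by Cayley–Hamilton. -/
theorem cube_eq_of_det_one {A : Type*} [CommRing A] {M : Matrix (Fin 2) (Fin 2) A}
    (hd : M.det = 1) : M ^ 3 = (M.trace ^ 2 - 1) • M - M.trace • 1 := by
  have h2 : M * M = M.trace • M - 1 := by rw [mul_self_trace_det, hd, one_smul]
  rw [pow_succ, pow_two, h2, sub_mul, one_mul, smul_mul_assoc, h2, smul_sub, smul_smul, sub_smul,
    one_smul, ← pow_two]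
  abel

/-- Cayley–Hamilton for a matrix of determinant one. -/
theorem sq_eq_of_det_one {m : M2} (hd : m.det = 1) : m * m = m.trace • m - 1 := by
  rw [mul_self_trace_det, hd, one_smul]

/-- Cayley–Hamilton for a matrix of determinant minus one. -/
theorem sq_eq_of_det_neg_one {m : M2} (hd : m.det = -1) : m * m = m.trace • m + 1 := by
  rw [mul_self_trace_det, hd, neg_smul, one_smul, sub_neg_eq_add]

/-- An element of `SL₂(𝔽₃)` outside the quaternion subgroup cubes to `±1` and has trace `∓1`. -/
theorem cube_trace_of_notMem_quat {g : G48} (hd : g ∈ slThree) (hg : g ∉ quatSubgroup) :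
    ((g : M2) ^ 3 = 1 ∧ (g : M2).trace = -1) ∨ ((g : M2) ^ 3 = -1 ∧ (g : M2).trace = 1) := by
  have hd' : (g : M2).det = 1 := hd
  have e3 := cube_eq_of_det_one hd'
  rcases (by decide : ∀ t : ZMod 3, t = 0 ∨ t = 1 ∨ t = -1) (g : M2).trace with h | h | h
  · exact absurd ⟨hd', Or.inl h⟩ hg
  · exact Or.inr ⟨by rw [e3, h]; simp, h⟩
  · exact Or.inl ⟨by rw [e3, h]; simp, h⟩

/-- The square of a trace-zero element of `SL₂(𝔽₃)` is `-1`. -/
theorem sq_eq_neg_one {g : G48} (hd : g ∈ slThree) (ht : (g : M2).trace = 0) : g * g = -1 :=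
  Units.ext (by rw [Units.val_mul, sq_eq_of_det_one hd, ht, zero_smul, zero_sub, Units.val_neg,
    Units.val_one])

/-- Every element of `SL₂(𝔽₃)` cubes into the quaternion subgroup. -/
theorem cube_mem_quat {g : G48} (hd : g ∈ slThree) : g ^ 3 ∈ quatSubgroup := by
  by_cases hg : g ∈ quatSubgroup
  · exact pow_mem hg 3
  · refine mem_quatSubgroup.2 ⟨pow_mem hd 3, Or.inr ?_⟩
    rw [Units.val_pow_eq_pow_val]
    rcases cube_trace_of_notMem_quat hd hg with ⟨h, -⟩ | ⟨h, -⟩
    · exact Or.inl h
    · exact Or.inr h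

/-- An element of order dividing three has determinant one. -/
theorem of_cube_eq_one {g : G48} (h : g ^ 3 = 1) : g ∈ slThree := by
  have h' := congrArg (fun x : G48 => (x : M2).det) h
  simp only [Units.val_pow_eq_pow_val, det_pow, Units.val_one, det_one] at h'
  have : ∀ d : ZMod 3, d ^ 3 = 1 → d = 1 := by decide
  exact this _ h'

/-- An element of square `-1` is killed by four. -/
theorem pow_four_of_sq_neg_one {g : G48} (h : g * g = -1) : g ^ 4 = 1 := by
  rw [show 4 = 2 + 2 from rfl, pow_add, pow_two, h, neg_mul_neg, one_mul]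

/-- The exponent of the quaternion subgroup divides four. -/
theorem pow_four_of_mem_quat {g : G48} (hg : g ∈ quatSubgroup) : g ^ 4 = 1 := by
  obtain ⟨hd, ht | ht | ht⟩ := mem_quatSubgroup.1 hg
  · exact pow_four_of_sq_neg_one (sq_eq_neg_one hd ht)
  · rw [show g = 1 from Units.ext ht, one_pow]
  · rw [show g = -1 from Units.ext (by rw [ht, Units.val_neg, Units.val_one])]
    exact Even.neg_one_pow (by decide)

/-- An element of `SL₂(𝔽₃)` killed by four lies in the quaternion subgroup. -/
theorem mem_quat_of_pow_four {g : G48} (hd : g ∈ slThree) (h4 : g ^ 4 = 1) :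
    g ∈ quatSubgroup := by
  have e : g = g ^ 4 * (g ^ 3)⁻¹ := by group
  rw [e, h4, one_mul]
  exact inv_mem (cube_mem_quat hd)

/-- The quaternion subgroup has no nontrivial element of order three. -/
theorem eq_one_of_cube_of_quat {g : G48} (h : g ^ 3 = 1) (hg : g ∈ quatSubgroup) : g = 1 := by
  have h4 := pow_four_of_mem_quat hg
  rwa [show 4 = 3 + 1 from rfl, pow_add, h, one_mul, pow_one] at h4

/-- A nontrivial element killed by three has trace `-1`. -/
theorem trace_of_cube_eq_one {g : G48} (h : g ^ 3 = 1) (hne : g ≠ 1) : (g : M2).trace = -1 := by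
  rcases cube_trace_of_notMem_quat (of_cube_eq_one h)
      (fun hq => hne (eq_one_of_cube_of_quat h hq)) with ⟨-, ht⟩ | ⟨h', -⟩
  · exact ht
  · rw [← Units.val_pow_eq_pow_val, h, Units.val_one] at h'
    exact absurd h' (by decide)

/-- An element killed by three is unipotent. -/
theorem sub_one_mul_self_of_cube_eq_one {g : G48} (h : g ^ 3 = 1) :
    ((g : M2) - 1) * ((g : M2) - 1) = 0 := by
  rcases eq_or_ne g 1 with rfl | hne
  · simp
  · rw [sub_mul, mul_sub, mul_one, one_mul, sq_eq_of_det_one (of_cube_eq_one h),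
      trace_of_cube_eq_one h hne, show (-1 : ZMod 3) = 2 from rfl, two_smul]
    abel

end Fermat.Agent.ResidualThree
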