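import Mathlib.LinearAlgebra.Matrix.GeneralLinearGroup.Defs
import Fermat.Prelude.Def_FLTPrelim_ModularRep
import Fermat.Prelude.Def_GaloisRep_ModThreeCyclotomic
import Fermat.Agent.EC.FrobTrace
import Fermat.Agent.Frey.Global
import Fermat.Agent.Frey.Local
import Fermat.Agent.Ihara.IrrCurve

/-!
# The mod 3 representation as a homomorphism to `GL₂(𝔽₃)`

For an integral Weierstrass equation `W` with nonzero discriminant, `rho` is the action of
`Gal(ℚ̄/ℚ)` on `E[3]` in a chosen basis.  Its kernel is open, its determinant is the mod 3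
cyclotomic character, its trace at a Frobenius element of a good prime `ℓ ≠ 3` is `a_ℓ` modulo `3`,
and irreducibility says that it has no common eigenvector.
-/

noncomputable section

namespace Fermat.Agent.ResidualThree

open WeierstrassCurve WeierstrassCurve.Affine.Point Fermat.Agent.Frey
open scoped WeierstrassCurve.Affine

local notation "Qbar" => AlgebraicClosure ℚ
local notation "GQ" => AlgebraicClosure ℚ ≃ₐ[ℚ] AlgebraicClosure ℚ

variable {W : WeierstrassCurve ℤ} (hΔ : W.Δ ≠ 0)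

/-- A basis of `E[3]`. -/
def torsBasis : Module.Basis (Fin 2) (ZMod 3) (Tors W 3) :=
  haveI := Module.finite_of_finrank_eq_succ (finrank_tors (p := 3) hΔ)
  Module.finBasisOfFinrankEq (ZMod 3) (Tors W 3) (finrank_tors (p := 3) hΔ)

/-- The action on `E[3]` in the basis `torsBasis`. -/
def rho : GQ →* GL (Fin 2) (ZMod 3) :=
  ((LinearMap.toMatrixAlgEquiv (torsBasis hΔ)).toRingEquiv.toMonoidHom.comp
    (galoisRepModuleEnd (S := ℚ) (K := Qbar) (W.map (Int.castRingHom ℚ)).toAffine 3)).toHomUnits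

theorem rho_coe (σ : GQ) :
    ((rho hΔ σ : GL (Fin 2) (ZMod 3)) : Matrix (Fin 2) (Fin 2) (ZMod 3)) =
      LinearMap.toMatrixAlgEquiv (torsBasis hΔ)
        (galoisRepModuleEnd (S := ℚ) (K := Qbar) (W.map (Int.castRingHom ℚ)).toAffine 3 σ) := rfl

/-- Coordinates turn the action into matrix multiplication. -/
theorem rho_mulVec (σ : GQ) (x : Tors W 3) :
    (rho hΔ σ : Matrix (Fin 2) (Fin 2) (ZMod 3)).mulVec ((torsBasis hΔ).equivFun x) =
      (torsBasis hΔ).equivFun (σ • x) := by
  rw [rho_coe]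
  exact LinearMap.toMatrix_mulVec_repr (torsBasis hΔ) (torsBasis hΔ) _ x

/-- `rho σ = 1` exactly when `σ` fixes every point of order dividing three. -/
theorem rho_eq_one_iff (σ : GQ) : rho hΔ σ = 1 ↔ ∀ x : Tors W 3, σ • x = x := by
  constructor
  · intro h x
    apply (torsBasis hΔ).equivFun.injective
    rw [← rho_mulVec, h, Units.val_one, Matrix.one_mulVec]
  · intro h
    refine Units.ext ?_
    rw [Units.val_one, rho_coe, ← map_one (LinearMap.toMatrixAlgEquiv (torsBasis hΔ))]
    congr 1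
    exact LinearMap.ext fun x => (galoisRepModuleEnd_apply _ _ σ x).trans (h x)

/-- The trace of `rho` is the Galois trace on `E[3]`. -/
theorem trace_rho (σ : GQ) :
    (rho hΔ σ : Matrix (Fin 2) (Fin 2) (ZMod 3)).trace =
      galoisTrace ℚ (W.map (Int.castRingHom ℚ)).toAffine 3 σ := by
  rw [galoisTrace_def, LinearMap.trace_eq_matrix_trace (ZMod 3) (torsBasis hΔ)]
  rfl

/-- The determinant is the mod 3 cyclotomic character. -/
theorem det_rho (σ : GQ) :
    (rho hΔ σ : Matrix (Fin 2) (Fin 2) (ZMod 3)).det =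
      ((modThreeCyclotomicChar σ : (ZMod 3)ˣ) : ZMod 3) := by
  have := isElliptic_mapRat hΔ
  have h := Ihara.det_galoisRepModuleEnd (p := 3) (W.map (Int.castRingHom ℚ))
    (Ihara.card_rootsOfUnity_Qbar 3) σ
  rw [← LinearMap.det_toMatrix (torsBasis hΔ)] at h
  rw [modThreeCyclotomicChar_apply]
  exact h

/-- The representation is odd. -/
theorem det_rho_complexConjugation :
    (rho hΔ complexConjugation : Matrix (Fin 2) (Fin 2) (ZMod 3)).det = -1 := by
  rw [det_rho, modThreeCyclotomicChar_apply,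
    Ihara.cyclotomicCharacter_complexConjugation (Ihara.card_rootsOfUnity_Qbar 3)]

/-- The trace at a Frobenius of a good prime. -/
theorem trace_rho_frobenius {ℓ : ℕ} (hℓ : ℓ.Prime) (h3 : ℓ ≠ 3) (hgood : W.IsGoodPrimeFor ℓ)
    {A : ValuationSubring Qbar} (hA : A.LiesOverPrime ℓ) {σ : GQ} (hσ : A.IsFrobeniusAt σ ℓ) :
    (rho hΔ σ : Matrix (Fin 2) (Fin 2) (ZMod 3)).trace = (W.apOfModel ℓ : ZMod 3) := by
  rw [trace_rho]
  exact EC.galoisTrace_frobenius (W := W) (p := 3) (ℓ := ℓ) hℓ h3 hgood hA hσ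

/-- The determinant at a Frobenius. -/
theorem det_rho_frobenius {ℓ : ℕ} (hℓ : ℓ.Prime) (h3 : ℓ ≠ 3)
    {A : ValuationSubring Qbar} (hA : A.LiesOverPrime ℓ) {σ : GQ} (hσ : A.IsFrobeniusAt σ ℓ) :
    (rho hΔ σ : Matrix (Fin 2) (Fin 2) (ZMod 3)).det = (ℓ : ZMod 3) := by
  rw [det_rho, modThreeCyclotomicChar_apply]
  refine (modularCyclotomicCharacter.unique Qbar _ _ fun t ht => ?_).symm
  have htn : (t : Qbar) ^ 3 = 1 := by
    rw [← Units.val_pow_eq_pow_val, (mem_rootsOfUnity 3 t).mp ht, Units.val_one]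
  show σ (t : Qbar) = _
  rw [Gal.isFrobeniusAt_rootOfUnity hℓ hA hσ
    (fun hd => h3 ((Nat.prime_dvd_prime_iff_eq hℓ Nat.prime_three).mp hd)) htn, ZMod.val_natCast]
  exact pow_eq_pow_mod _ htn

/-- Irreducibility: no common eigenvector. -/
theorem exists_not_eigen (hirr : W.ModRepIsIrreducible 3) {v : Fin 2 → ZMod 3} (hv : v ≠ 0) :
    ∃ σ : GQ, ∀ c : ZMod 3,
      (rho hΔ σ : Matrix (Fin 2) (Fin 2) (ZMod 3)).mulVec v ≠ c • v := by
  by_contra h
  push Not at h
  set x := (torsBasis hΔ).equivFun.symm v with hxdef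
  have hx : (torsBasis hΔ).equivFun x = v := (torsBasis hΔ).equivFun.apply_symm_apply v
  have hx0 : x ≠ 0 := fun e => hv (by rw [← hx, e, _root_.map_zero])
  have hst : IsGaloisStable ℚ (Submodule.span (ZMod 3) {x}) := fun σ y hy => by
    obtain ⟨r, rfl⟩ := Submodule.mem_span_singleton.mp hy
    obtain ⟨c, hc⟩ := h σ
    have e : σ • x = c • x := (torsBasis hΔ).equivFun.injective
      (by rw [← rho_mulVec, hx, hc, map_smul, hx])
    rw [smul_zmod_comm, e, smul_smul]
    exact Submodule.mem_span_singleton.mpr ⟨_, rfl⟩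
  rcases hirr.2 _ hst with e | e
  · exact hx0 (by simpa using e)
  · have h1 := finrank_span_singleton (K := ZMod 3) hx0
    rw [e, finrank_top, finrank_tors (p := 3) hΔ] at h1
    omega

/-- The kernel of `rho` is open. -/
theorem isOpen_ker_rho : IsOpen ((rho hΔ).ker : Set GQ) := by
  refine isOpen_of_kernel_le (p := 3) hΔ _ fun σ h => ?_
  rw [MonoidHom.mem_ker]
  exact (rho_eq_one_iff hΔ σ).mpr h

/-- `rho` factors through the Galois group of a finite extension. -/
theorem rho_factors : GaloisFactorsThroughFiniteLevel (rho hΔ) := by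
  have := isElliptic_mapRat hΔ
  obtain ⟨L, hL, h⟩ :=
    EC.galoisFactorsThroughFiniteLevel (W.map (Int.castRingHom ℚ)) 3 (by norm_num)
  refine ⟨L, hL, fun σ hσ => ?_⟩
  refine (rho_eq_one_iff hΔ σ).mpr fun x => ?_
  have := LinearMap.congr_fun (h σ hσ) x
  rwa [galoisRepModuleEnd_apply] at this

end Fermat.Agent.ResidualThree
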