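import Mathlib.GroupTheory.Nilpotent
import Mathlib.GroupTheory.PGroup
import Mathlib.GroupTheory.Perm.Cycle.Type
import Fermat.Agent.Frey.Global
import Fermat.Agent.LevelLowering.Transvections
import Fermat.Agent.ResidualThree.Galois.Group
import Fermat.Agent.ResidualThree.Galois.Rho
import Fermat.Agent.TW.Tame

/-!
# An irreducible semistable mod 3 representation is surjective

For a semistable Weierstrass equation with irreducible `E[3]` the image of `rho` has order
divisible by three, as otherwise tameness at `3` and the absence of unramified extensions of `ℚ`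
would make it abelian; hence it contains `SL₂(𝔽₃)`, and by oddness it is all of `GL₂(𝔽₃)`.
-/

noncomputable section

namespace Fermat.Agent.ResidualThree

open WeierstrassCurve WeierstrassCurve.Affine.Point Fermat.Agent.Frey
open scoped WeierstrassCurve.Affine Pointwise

local notation "Qbar" => AlgebraicClosure ℚ
local notation "GQ" => AlgebraicClosure ℚ ≃ₐ[ℚ] AlgebraicClosure ℚ
local notation "G48" => GL (Fin 2) (ZMod 3)
local notation "M2" => Matrix (Fin 2) (Fin 2) (ZMod 3)

variable {W : WeierstrassCurve ℤ} (hΔ : W.Δ ≠ 0)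

/-- Inertia away from `3` acts through elements killed by `3`. -/
theorem rho_inertia_cube (hss : W.IsSemistableModel) {ℓ : ℕ} (hℓ : ℓ.Prime) (h3 : ℓ ≠ 3)
    {A : ValuationSubring Qbar} (hA : A.LiesOverPrime ℓ) {σ : GQ}
    (hσ : σ ∈ A.inertiaSubgroupIn ℚ) : rho hΔ σ ^ 3 = 1 := by
  rw [← map_pow, rho_eq_one_iff]
  intro x
  have hu := inertia_unipotent hΔ hss hℓ hA Nat.prime_three (by norm_num) h3 hσ x
  set d := σ • x - x with hd
  have h1 : σ • x = x + d := by rw [hd]; abel
  have h2 : σ • (σ • x) = x + d + d := by rw [h1, smul_add, h1, hu]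
  have h4 : σ • (σ • (σ • x)) = x + d + d + d := by rw [h2, smul_add, smul_add, h1, hu]
  have hd3 : d + d + d = 0 := by
    rw [show d + d + d = ((3 : ℕ) : ZMod 3) • d by rw [Nat.cast_smul_eq_nsmul]; abel,
      ZMod.natCast_self, zero_smul]
  rw [show σ ^ 3 = σ * (σ * σ) by rw [pow_succ', pow_two], mul_smul, mul_smul, h4, add_assoc x,
    add_assoc x, hd3, add_zero]

/-- The fixed space of a non-identity involution of determinant `-1` is a line. -/
theorem exists_fixed_vector {c : M2} (hc : c * c = 1) (hd : c.det = -1) :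
    ∃ v : Fin 2 → ZMod 3, v ≠ 0 ∧ c.mulVec v = v ∧
      ∀ w : Fin 2 → ZMod 3, c.mulVec w = w → ∃ k : ZMod 3, w = k • v := by
  have key : ∀ a b e f : ZMod 3, a * a + b * e = 1 → a * b + b * f = 0 → e * a + f * e = 0 →
      e * b + f * f = 1 → a * f - b * e = -1 →
      ∃ x y : ZMod 3, (x ≠ 0 ∨ y ≠ 0) ∧ a * x + b * y = x ∧ e * x + f * y = y ∧
        ∀ s t : ZMod 3, a * s + b * t = s → e * s + f * t = t →
          ∃ k : ZMod 3, s = k * x ∧ t = k * y := by decide
  obtain ⟨x, y, hxy, h1, h2, h3⟩ := key (c 0 0) (c 0 1) (c 1 0) (c 1 1)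
    (by simpa [Matrix.mul_apply, Fin.sum_univ_two] using congrFun (congrFun hc 0) 0)
    (by simpa [Matrix.mul_apply, Fin.sum_univ_two] using congrFun (congrFun hc 0) 1)
    (by simpa [Matrix.mul_apply, Fin.sum_univ_two] using congrFun (congrFun hc 1) 0)
    (by simpa [Matrix.mul_apply, Fin.sum_univ_two] using congrFun (congrFun hc 1) 1)
    (by rw [← hd, Matrix.det_fin_two])
  refine ⟨![x, y], fun h => ?_, ?_, fun w hw => ?_⟩
  · rcases hxy with h' | h'
    · exact h' (congrFun h 0)
    · exact h' (congrFun h 1)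
  · ext i; fin_cases i <;> simp [Matrix.mulVec, dotProduct, Fin.sum_univ_two, h1, h2]
  · obtain ⟨k, hk1, hk2⟩ := h3 (w 0) (w 1)
      (by simpa [Matrix.mulVec, dotProduct, Fin.sum_univ_two] using congrFun hw 0)
      (by simpa [Matrix.mulVec, dotProduct, Fin.sum_univ_two] using congrFun hw 1)
    exact ⟨k, by ext i; fin_cases i <;> simp [hk1, hk2]⟩

/-- The image has order divisible by `3`. -/
theorem three_dvd_card_range (hss : W.IsSemistableModel) (hirr : W.ModRepIsIrreducible 3) :
    3 ∣ Nat.card (rho hΔ).range := by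
  by_contra h3
  set G := (rho hΔ).range with hG
  have hdvd : Nat.card G ∣ 16 := by
    have h := Subgroup.card_subgroup_dvd_card G
    rw [card_gl_three, show 48 = 3 * 16 from rfl] at h
    exact ((Nat.prime_three.coprime_iff_not_dvd.2 h3).symm).dvd_of_dvd_mul_left h
  obtain ⟨n, hn, hcard⟩ := (Nat.dvd_prime_pow Nat.prime_two).1
    (show Nat.card G ∣ 2 ^ 4 by exact hdvd)
  have hP : IsPGroup 2 G := IsPGroup.of_card hcard
  obtain ⟨A₀, hA₀⟩ := Gal.exists_liesOverPrime Nat.prime_three
  obtain ⟨L, hL, hLfix⟩ := rho_factors hΔ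
  let π : GQ →* G := (rho hΔ).rangeRestrict
  obtain ⟨t, ht, htgen⟩ := TW.exists_inertia_generator Nat.prime_three Nat.prime_two (by norm_num)
    hA₀ π L (fun σ hσ => Subtype.ext (hLfix σ hσ)) (fun σ _ => hP (π σ))
  have h1 : ∀ ℓ : ℕ, ℓ.Prime → ℓ ≠ 3 → ∀ A : ValuationSubring Qbar, A.LiesOverPrime ℓ →
      ∀ σ ∈ A.inertiaSubgroupIn ℚ, π σ = 1 := by
    intro ℓ hℓ hne A hA σ hσ
    have hc := rho_inertia_cube hΔ hss hℓ hne hA hσ
    obtain ⟨k, hk⟩ := hP (π σ)
    have h3' : orderOf (π σ) ∣ 3 := orderOf_dvd_of_pow_eq_one (Subtype.ext hc)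
    have h2' : orderOf (π σ) ∣ 2 ^ k := orderOf_dvd_of_pow_eq_one hk
    exact orderOf_eq_one_iff.1 (Nat.dvd_one.1
      ((Nat.Coprime.pow_right k (by norm_num : Nat.Coprime 3 2)) ▸ Nat.dvd_gcd h3' h2'))
  have htop : Subgroup.zpowers (π t) = ⊤ := by
    rcases eq_top_or_exists_le_coatom (Subgroup.zpowers (π t)) with h | ⟨M, hM, hle⟩
    · exact h
    · exfalso
      have : Group.IsNilpotent G := hP.isNilpotent
      have hMn : M.Normal :=
        Subgroup.NormalizerCondition.normal_of_coatom M
          Group.normalizerCondition_of_isNilpotent hM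
      have hker : ((rho hΔ).ker : Subgroup GQ) ≤ M.comap π := fun σ hσ => by
        rw [Subgroup.mem_comap, show π σ = 1 from Subtype.ext hσ]
        exact one_mem _
      have hall := Frey.eq_top_of_inertia_le (M.comap π)
        (Subgroup.isOpen_mono hker (isOpen_ker_rho hΔ)) fun ℓ hℓ A hA σ hσ => by
          rw [Subgroup.mem_comap]
          rcases eq_or_ne ℓ 3 with rfl | hne
          · obtain ⟨g, rfl⟩ := Gal.exists_smul_eq Nat.prime_three hA₀ hA
            have := Gal.conj_mem_inertia hσ g⁻¹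
            rw [inv_smul_smul, inv_inv] at this
            have hmem := hMn.conj_mem _ (hle (htgen _ this)) (π g)
            rw [← map_inv, ← map_mul, ← map_mul] at hmem
            rwa [show g * (g⁻¹ * σ * g) * g⁻¹ = σ by group] at hmem
          · rw [h1 ℓ hℓ hne A hA σ hσ]; exact one_mem _
      refine hM.1 (eq_top_iff.2 fun x _ => ?_)
      obtain ⟨_, g, rfl⟩ := x
      exact (hall ▸ Subgroup.mem_top g : g ∈ M.comap π)
  -- commutativity, hence a stable line
  set c : M2 := ((rho hΔ complexConjugation : G48) : M2) with hcdef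
  obtain ⟨v, hv, hcv, hline⟩ := exists_fixed_vector (c := c)
    (by rw [hcdef, ← Units.val_mul, ← map_mul, complexConjugation_mul_self, map_one,
      Units.val_one])
    (det_rho_complexConjugation hΔ)
  obtain ⟨σ, hσ⟩ := exists_not_eigen hΔ hirr hv
  obtain ⟨i, hi⟩ := Subgroup.mem_zpowers_iff.1 (htop ▸ Subgroup.mem_top (π σ))
  obtain ⟨j, hj⟩ := Subgroup.mem_zpowers_iff.1 (htop ▸ Subgroup.mem_top (π complexConjugation))
  have hcomm : π σ * π complexConjugation = π complexConjugation * π σ := by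
    rw [← hi, ← hj, ← zpow_add, ← zpow_add, add_comm]
  have hcomm' : (rho hΔ σ : M2) * c = c * (rho hΔ σ : M2) := by
    rw [hcdef, ← Units.val_mul, ← Units.val_mul]
    exact congrArg Units.val (congrArg Subtype.val hcomm)
  obtain ⟨k, hk⟩ := hline ((rho hΔ σ : M2).mulVec v)
    (by rw [Matrix.mulVec_mulVec, ← hcomm', ← Matrix.mulVec_mulVec, hcv])
  exact hσ k hk

/-- An irreducible semistable mod 3 representation is surjective. -/
theorem rho_surjective (hss : W.IsSemistableModel) (hirr : W.ModRepIsIrreducible 3) :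
    Function.Surjective (rho hΔ) := by
  obtain ⟨⟨_, σ, rfl⟩, hu⟩ :=
    exists_prime_orderOf_dvd_card' 3 (three_dvd_card_range hΔ hss hirr)
  have hu3 : rho hΔ σ ^ 3 = 1 := by
    have := pow_orderOf_eq_one (⟨rho hΔ σ, σ, rfl⟩ : (rho hΔ).range)
    rw [hu] at this
    exact congrArg Subtype.val this
  have hu1 : rho hΔ σ ≠ 1 := fun h => by
    have : orderOf (⟨rho hΔ σ, σ, rfl⟩ : (rho hΔ).range) = 1 :=
      orderOf_eq_one_iff.2 (Subtype.ext h)
    omega
  set ρE := galoisRepModuleEnd (S := ℚ) (K := Qbar) (W.map (Int.castRingHom ℚ)).toAffine 3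
    with hρE
  have hne : ρE σ ≠ 1 := fun h => hu1 (Units.ext (by rw [rho_coe, h, map_one, Units.val_one]))
  have huni : ∀ v, ρE σ (ρE σ v - v) = ρE σ v - v := by
    intro v
    have h := sub_one_mul_self_of_cube_eq_one hu3
    rw [rho_coe, ← map_one (LinearMap.toMatrixAlgEquiv (torsBasis hΔ)), ← map_sub, ← map_mul,
      ← map_zero (LinearMap.toMatrixAlgEquiv (torsBasis hΔ))] at h
    have h' := LinearMap.congr_fun ((LinearMap.toMatrixAlgEquiv (torsBasis hΔ)).injective h) v
    simp only [Module.End.mul_apply, LinearMap.sub_apply, Module.End.one_apply,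
      LinearMap.zero_apply] at h'
    exact sub_eq_zero.1 h'
  have hT : LevelLowering.HasOppositeTransvections ρE := by
    refine LevelLowering.HasOppositeTransvections.of_unipotent (finrank_tors (p := 3) hΔ) ρE
      (fun N hN => hirr.2 N fun τ x hx => ?_) hne huni
    have := hN τ x hx
    rwa [hρE, galoisRepModuleEnd_apply] at this
  have hsl : ∀ g : G48, (g : M2).det = 1 → g ∈ (rho hΔ).range := by
    intro g hg
    obtain ⟨τ, hτ⟩ := hT.sl2_le_range ((LinearMap.toMatrixAlgEquiv (torsBasis hΔ)).symm (g : M2))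
      (by
        rw [← LinearMap.det_toMatrix (torsBasis hΔ)]
        change (LinearMap.toMatrixAlgEquiv (torsBasis hΔ) _).det = 1
        rw [AlgEquiv.apply_symm_apply, hg])
    exact ⟨τ, Units.ext (by rw [rho_coe, hτ, AlgEquiv.apply_symm_apply])⟩
  intro g
  rcases det_eq_one_or_neg_one g with hd | hd
  · exact hsl g hd
  · obtain ⟨τ, hτ⟩ := hsl (rho hΔ complexConjugation * g)
      (by rw [Units.val_mul, Matrix.det_mul, det_rho_complexConjugation, hd, neg_mul_neg,
        one_mul])
    exact ⟨complexConjugation * τ, by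
      rw [map_mul, hτ, ← mul_assoc, ← map_mul, complexConjugation_mul_self, map_one, one_mul]⟩

end Fermat.Agent.ResidualThree
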