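import Fermat.Agent.Gal.Basic
import Fermat.Agent.Gal.EulerLog
import Fermat.Agent.ResidualThree.Automorphic.ThetaInterface

/-!
# Places of a number field inside `ℚ̄` and the valuation subrings above them

For a number field `L ⊆ ℚ̄`, every finite place `w` has a valuation subring of `ℚ̄` above it, these
subrings form one orbit under `Gal(ℚ̄/L)`, and the decomposition group contains a Frobenius element
for the absolute norm of `w`.  This links the places of `L` to Frobenius classes in `Gal(ℚ̄/ℚ)`.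
-/

noncomputable section

open NumberField IsDedekindDomain
open scoped Pointwise

namespace Fermat.Agent.ResidualThree

local notation "Qbar" => AlgebraicClosure ℚ
local notation "Γℚ" => (AlgebraicClosure ℚ ≃ₐ[ℚ] AlgebraicClosure ℚ)
local notation "OZ" => integralClosure ℤ (AlgebraicClosure ℚ)

variable {L : IntermediateField ℚ Qbar} [NumberField L]

omit [NumberField L] in
theorem isIntegral_coe_ringOfIntegers (x : 𝓞 L) : IsIntegral ℤ ((x : L) : Qbar) :=
  x.2.map (L.val.restrictScalars ℤ)

omit [NumberField L] in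
/-- An algebraic integer lying in `L` is an integer of `L`. -/
theorem exists_ringOfIntegers {x : Qbar} (hx : IsIntegral ℤ x) (hxL : x ∈ L) :
    ∃ a : 𝓞 L, ((a : L) : Qbar) = x :=
  ⟨⟨⟨x, hxL⟩, (isIntegral_algHom_iff (L.val.restrictScalars ℤ) Subtype.val_injective).mp hx⟩,
    rfl⟩

/-- An element of the field is a non-unit of a valuation subring over a place iff its valuation
at that place is less than one. -/
theorem mem_nonunits_iff_of_liesOverPlace {A : ValuationSubring Qbar} {w : FPlace L}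
    (h : LiesOverPlace A w) (x : L) : (x : Qbar) ∈ A.nonunits ↔ w.valuation L x < 1 := by
  rcases eq_or_ne x 0 with rfl | hx
  · simp
  have hx' : (x : Qbar) ≠ 0 := fun e => hx (Subtype.ext e)
  have hinv := h x⁻¹
  rw [IntermediateField.coe_inv] at hinv
  have hv : w.valuation L x ≠ 0 := (Valuation.ne_zero_iff _).mpr hx
  rw [ValuationSubring.mem_nonunits_iff, ← not_le, ← not_iff_not, not_not, not_lt]
  rw [map_inv₀, inv_le_one₀ (zero_lt_iff.mpr hv)] at hinv
  rw [← hinv, ← ValuationSubring.valuation_le_one_iff, map_inv₀,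
    inv_le_one₀ (zero_lt_iff.mpr ((Valuation.ne_zero_iff _).mpr hx'))]

/-- An integer of `L` is a nonunit of `A` exactly when it lies in the prime of `w`. -/
theorem mem_nonunits_ringOfIntegers {A : ValuationSubring Qbar} {w : FPlace L}
    (h : LiesOverPlace A w) (a : 𝓞 L) :
    ((a : L) : Qbar) ∈ A.nonunits ↔ a ∈ w.asIdeal := by
  rw [mem_nonunits_iff_of_liesOverPlace h]
  exact (w.valuation_lt_one_iff_mem a)

/-- Every place of `L` has a valuation subring of `Qbar` above it. -/
theorem exists_liesOverPlace (w : FPlace L) :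
    ∃ A : ValuationSubring Qbar, LiesOverPlace A w := by
  let ι : 𝓞 L →+* Qbar := L.val.toRingHom.comp (algebraMap (𝓞 L) L)
  have hι : Function.Injective ι :=
    L.val.toRingHom.injective.comp NumberField.RingOfIntegers.coe_injective
  let eq : 𝓞 L ≃+* ι.range := RingEquiv.ofBijective ι.rangeRestrict
    ⟨fun x y h => hι (congrArg (fun z : ι.range => (z : Qbar)) h), ι.rangeRestrict_surjective⟩
  have := w.isPrime
  have hI : w.asIdeal.map (eq : 𝓞 L →+* ι.range) ≠ ⊤ := (Ideal.map_isPrime_of_equiv eq).ne_top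
  obtain ⟨A, -, hA⟩ := Ideal.image_subset_nonunits_valuationSubring _ hI
  refine ⟨A, ?_⟩
  have hint : ∀ a : 𝓞 L, ((a : L) : Qbar) ∈ A := fun a =>
    Gal.mem_of_isIntegral (isIntegral_coe_ringOfIntegers a)
  have hmem : ∀ a ∈ w.asIdeal, ((a : L) : Qbar) ∈ A.nonunits := fun a ha =>
    hA ⟨_, Ideal.mem_map_of_mem _ ha, rfl⟩
  have hunit : ∀ a ∉ w.asIdeal, ((a : L) : Qbar) ∉ A.nonunits := by
    intro a ha h
    obtain ⟨y, i, hi, hy⟩ := (w.isMaximal).exists_inv ha
    have h1 : (((y * a + i : 𝓞 L) : L) : Qbar) = 1 := by rw [hy]; simp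
    have h2 : ((1 : Qbar)) ∈ A.nonunits := by
      rw [← h1]
      push_cast
      exact add_mem (Gal.mul_mem_nonunits (hint y) h) (hmem i hi)
    rw [ValuationSubring.mem_nonunits_iff, map_one] at h2
    exact lt_irrefl _ h2
  intro x
  constructor
  · intro hx
    by_contra hlt
    rw [not_le] at hlt
    have hx0 : x ≠ 0 := fun e => by rw [e, map_zero] at hlt; exact not_lt_bot hlt
    obtain ⟨n, d, hnd⟩ := HeightOneSpectrum.exists_primeCompl_mul_eq_of_integer w x⁻¹ (by
      rw [map_inv₀]; exact inv_le_one_of_one_le₀ hlt.le)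
    have hn' : ((n : L) : Qbar) = (x : Qbar)⁻¹ * ((d.1 : L) : Qbar) :=
      congrArg Subtype.val hnd.symm
    have hn : n ∈ w.asIdeal := by
      refine (w.valuation_lt_one_iff_mem (K := L) n).mp ?_
      refine lt_of_eq_of_lt (congrArg (w.valuation L) hnd).symm ?_
      rw [map_mul, map_inv₀,
        (w.valuation_eq_one_iff_notMem (K := L)).mpr d.2, mul_one]
      exact inv_lt_one_of_one_lt₀ hlt
    have h1 := hmem n hn
    have h2 := Gal.mul_mem_nonunits hx h1
    refine hunit d d.2 ?_
    have hx' : (x : Qbar) ≠ 0 := fun e => hx0 (Subtype.ext e)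
    rw [hn', ← mul_assoc, mul_inv_cancel₀ hx', one_mul] at h2
    exact h2
  · intro hx
    obtain ⟨n, d, hnd⟩ := HeightOneSpectrum.exists_primeCompl_mul_eq_of_integer w x hx
    have hd0 : ((d.1 : L) : Qbar) ≠ 0 := fun e => hunit d d.2 (by
      rw [e, ValuationSubring.mem_nonunits_iff, map_zero]; exact zero_lt_one)
    have hdinv : (((d.1 : L) : Qbar))⁻¹ ∈ A := by
      have := hunit d d.2
      rw [ValuationSubring.mem_nonunits_iff, not_lt] at this
      rw [← ValuationSubring.valuation_le_one_iff, map_inv₀]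
      exact inv_le_one_of_one_le₀ this
    have := mul_mem (hint n) hdinv
    have hn' : ((n : L) : Qbar) = (x : Qbar) * ((d.1 : L) : Qbar) :=
      congrArg Subtype.val hnd.symm
    rw [hn', mul_assoc, mul_inv_cancel₀ hd0, mul_one] at this
    exact this

/-- The residue characteristic `q` and degree `f` of a place, with norm `q ^ f`. -/
theorem exists_prime_absNorm {A : ValuationSubring Qbar} {w : FPlace L} (h : LiesOverPlace A w) :
    ∃ q f : ℕ, q.Prime ∧ A.LiesOverPrime q ∧ 0 < f ∧ Ideal.absNorm w.asIdeal = q ^ f := by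
  obtain ⟨q, hq, hqw, -⟩ := Gal.exists_prime_pow_absNorm w
  have := w.isMaximal
  let : Field (𝓞 L ⧸ w.asIdeal) := Ideal.Quotient.field _
  have : Finite (𝓞 L ⧸ w.asIdeal) := Ideal.finiteQuotientOfFreeOfNeBot _ w.ne_bot
  have : Fintype (𝓞 L ⧸ w.asIdeal) := Fintype.ofFinite _
  have : CharP (𝓞 L ⧸ w.asIdeal) q := (CharP.charP_iff_prime_eq_zero hq).mpr (by
    rw [← map_natCast (Ideal.Quotient.mk w.asIdeal)]
    exact Ideal.Quotient.eq_zero_iff_mem.mpr hqw)
  obtain ⟨f, -, hf⟩ := FiniteField.card (𝓞 L ⧸ w.asIdeal) q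
  refine ⟨q, f, hq, ?_, f.pos, ?_⟩
  · have := (mem_nonunits_ringOfIntegers h (q : 𝓞 L)).mpr hqw
    simpa [ValuationSubring.LiesOverPrime] using this
  · rw [Ideal.absNorm_apply, Submodule.cardQuot_apply, ← hf, Nat.card_eq_fintype_card]

/-- The fixing subgroup of `L` permutes the subrings above a place. -/
theorem liesOverPlace_smul {A : ValuationSubring Qbar} {w : FPlace L} (h : LiesOverPlace A w)
    {σ : Γℚ} (hσ : σ ∈ L.fixingSubgroup) : LiesOverPlace (σ • A) w := by
  intro x
  rw [Gal.mem_smul_iff, ← h x]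
  rw [(IntermediateField.mem_fixingSubgroup_iff _ _).mp (inv_mem hσ) _ x.2]

/-- The valuation subrings over a place form one orbit of the fixing subgroup. -/
theorem exists_smul_eq_of_liesOverPlace {A B : ValuationSubring Qbar} {w : FPlace L}
    (hA : LiesOverPlace A w) (hB : LiesOverPlace B w) :
    ∃ σ ∈ L.fixingSubgroup, σ • A = B := by
  obtain ⟨q, f, hq, hqA, hf, hN⟩ := exists_prime_absNorm hA
  obtain ⟨q', f', hq', hqB, hf', hN'⟩ := exists_prime_absNorm hB
  obtain rfl : q = q' :=
    (Nat.prime_dvd_prime_iff_eq hq hq').mp (hq.dvd_of_dvd_pow (n := f') (by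
      rw [← hN', hN]; exact dvd_pow_self q hf.ne'))
  refine Gal.exists_mem_smul_eq L.fixingSubgroup (InfiniteGalois.fixingSubgroup_isClosed L) hq hqA
    hqB fun x hx hfix => ?_
  have hxL : x ∈ L := by
    rw [← InfiniteGalois.fixedField_fixingSubgroup L, IntermediateField.mem_fixedField_iff]
    exact hfix
  obtain ⟨a, rfl⟩ := exists_ringOfIntegers hx hxL
  rw [mem_nonunits_ringOfIntegers hA, mem_nonunits_ringOfIntegers hB]

/-- A Frobenius element at `w` inside the fixing subgroup of `L`. -/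
theorem exists_isFrobeniusAt_absNorm {A : ValuationSubring Qbar} {w : FPlace L}
    (h : LiesOverPlace A w) :
    ∃ σ ∈ L.fixingSubgroup, A.IsFrobeniusAt σ (Ideal.absNorm w.asIdeal) := by
  obtain ⟨q, f, hq, hqA, hf, hN⟩ := exists_prime_absNorm h
  rw [hN]
  have : Fact q.Prime := ⟨hq⟩
  have := Gal.idealAt_charP hq hqA
  have := Gal.residueField_charP hq hqA
  have hsurj : Function.Surjective (iterateFrobenius (OZ ⧸ Gal.idealAt A) q f) := by
    intro y
    obtain ⟨x, rfl⟩ := Ideal.Quotient.mk_surjective y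
    obtain ⟨z, hz⟩ := IsAlgClosed.exists_pow_nat_eq (x : Qbar) (pow_pos hq.pos f)
    refine ⟨Ideal.Quotient.mk _ ⟨z, IsIntegral.of_pow (pow_pos hq.pos f) (hz ▸ x.2)⟩, ?_⟩
    rw [iterateFrobenius_def, ← map_pow]
    exact congrArg _ (Subtype.ext hz)
  let φ : (OZ ⧸ Gal.idealAt A) ≃+* (OZ ⧸ Gal.idealAt A) :=
    RingEquiv.ofBijective _ ⟨iterateFrobenius_inj _ q f, hsurj⟩
  have hmax := w.isMaximal
  let : Field (𝓞 L ⧸ w.asIdeal) := Ideal.Quotient.field _
  have : Finite (𝓞 L ⧸ w.asIdeal) := Ideal.finiteQuotientOfFreeOfNeBot _ w.ne_bot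
  have : Fintype (𝓞 L ⧸ w.asIdeal) := Fintype.ofFinite _
  have hcard : Fintype.card (𝓞 L ⧸ w.asIdeal) = q ^ f := by
    rw [← hN, Ideal.absNorm_apply, Submodule.cardQuot_apply, Nat.card_eq_fintype_card]
  obtain ⟨σ, hσL, hσd, hσφ⟩ := Gal.exists_mem_residue_eq L.fixingSubgroup
    (InfiniteGalois.fixingSubgroup_isClosed L) hq hqA φ fun x hx => by
      have hxL : (x : Qbar) ∈ L := by
        rw [← InfiniteGalois.fixedField_fixingSubgroup L, IntermediateField.mem_fixedField_iff]
        exact fun σ hσ => congrArg Subtype.val (hx ⟨σ, hσ⟩)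
      obtain ⟨a, ha⟩ := exists_ringOfIntegers x.2 hxL
      have e := FiniteField.pow_card (Ideal.Quotient.mk w.asIdeal a)
      rw [hcard, ← map_pow, Ideal.Quotient.eq, ← mem_nonunits_ringOfIntegers h] at e
      rw [RingEquiv.ofBijective_apply, iterateFrobenius_def, ← map_pow, Ideal.Quotient.eq,
        Gal.mem_idealAt]
      convert e using 1
      push_cast
      rw [ha]
  refine ⟨σ, hσL, hσd, fun y => ?_⟩
  have key := Gal.ringHom_eq_of_isIntegral hq hqA (Gal.residueComp hσd)
    ((iterateFrobenius (IsLocalRing.ResidueField A) q f).comp (IsLocalRing.residue A))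
    fun x hx => by
      rw [RingHom.comp_apply, iterateFrobenius_def, ← map_pow]
      refine (Gal.residueComp_eq_iff hσd x (x ^ (q ^ f))).mpr ?_
      have := hσφ ⟨x, hx⟩
      rw [RingEquiv.ofBijective_apply, iterateFrobenius_def, ← map_pow, Ideal.Quotient.eq,
        Gal.mem_idealAt] at this
      exact this
  obtain ⟨x, rfl⟩ := IsLocalRing.residue_surjective y
  exact DFunLike.congr_fun key x

end Fermat.Agent.ResidualThree
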