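import Fermat.Agent.ResidualThree.BianchiForm.Places
import Fermat.Agent.ResidualThree.Galois.Places
import Fermat.Agent.ResidualThree.Orbital.Places

/-!
# Places of a subfield extension `L/K` inside `ℚ̄`

Compatibility of valuation subrings above a place `w` of `L` and the place below it in `K`, powers
of Frobenius elements, the bound on the residue field given by a Frobenius element fixing `L`, and
the fundamental identity `∑ e f = [L : K]`.
-/

noncomputable section

open NumberField IsDedekindDomain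
open scoped Pointwise

namespace Fermat.Agent.ResidualThree

local notation "Qbar" => AlgebraicClosure ℚ
local notation "Γℚ" => (AlgebraicClosure ℚ ≃ₐ[ℚ] AlgebraicClosure ℚ)

/-- A power of a Frobenius element is a Frobenius element for that power of the norm. -/
theorem isFrobeniusAt_pow {A : ValuationSubring Qbar} {σ : Γℚ} {N : ℕ}
    (h : A.IsFrobeniusAt σ N) (k : ℕ) : A.IsFrobeniusAt (σ ^ k) (N ^ k) := by
  rw [Gal.isFrobeniusAt_iff] at h ⊢
  refine ⟨pow_mem h.1 k, fun x hx => ?_⟩
  induction k with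
  | zero => simp [zero_mem]
  | succ k ih =>
    have h1 := (Gal.decomposition_mem_nonunits_iff h.1).mpr ih
    have h2 := h.2 (x ^ N ^ k) (pow_mem hx _)
    have h3 := add_mem h1 h2
    rw [map_sub, sub_add_sub_cancel, ← pow_mul, ← pow_succ] at h3
    rwa [pow_succ' σ, AlgEquiv.mul_apply]

section Residue

variable {L : IntermediateField ℚ Qbar} [NumberField L]

/-- A Frobenius element fixing `L` bounds the residue field. -/
theorem absNorm_le_of_isFrobeniusAt {A : ValuationSubring Qbar} {w : FPlace L}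
    (h : LiesOverPlace A w) {σ : Γℚ} (hσ : σ ∈ L.fixingSubgroup) {N : ℕ} (hN : 1 < N)
    (hF : A.IsFrobeniusAt σ N) : Ideal.absNorm w.asIdeal ≤ N := by
  classical
  have hmax := w.isMaximal
  let : Field (𝓞 L ⧸ w.asIdeal) := Ideal.Quotient.field _
  have : Finite (𝓞 L ⧸ w.asIdeal) := Ideal.finiteQuotientOfFreeOfNeBot _ w.ne_bot
  have : Fintype (𝓞 L ⧸ w.asIdeal) := Fintype.ofFinite _
  rw [Ideal.absNorm_apply, Submodule.cardQuot_apply, Nat.card_eq_fintype_card]
  have hroot : ∀ y : 𝓞 L ⧸ w.asIdeal, y ^ N = y := by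
    intro y
    obtain ⟨a, rfl⟩ := Ideal.Quotient.mk_surjective y
    rw [← map_pow, Ideal.Quotient.eq, ← mem_nonunits_ringOfIntegers h]
    have h1 := (Gal.isFrobeniusAt_iff.mp hF).2 _ (Gal.mem_of_isIntegral
      (isIntegral_coe_ringOfIntegers a) : ((a : L) : Qbar) ∈ A)
    rw [(IntermediateField.mem_fixingSubgroup_iff _ _).mp hσ _ (a : L).2] at h1
    have h2 := neg_mem h1
    rw [neg_sub] at h2
    convert h2 using 1
    push_cast
    ring
  have hne : (Polynomial.X ^ N - Polynomial.X : Polynomial (𝓞 L ⧸ w.asIdeal)) ≠ 0 :=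
    FiniteField.X_pow_card_sub_X_ne_zero _ hN
  have hsub : (Finset.univ : Finset (𝓞 L ⧸ w.asIdeal)) ⊆
      (Polynomial.X ^ N - Polynomial.X : Polynomial (𝓞 L ⧸ w.asIdeal)).roots.toFinset := by
    intro y _
    rw [Multiset.mem_toFinset, Polynomial.mem_roots hne]
    simp [Polynomial.IsRoot, hroot y]
  refine (Finset.card_le_card hsub).trans ((Multiset.toFinset_card_le _).trans ?_)
  refine (Polynomial.card_roots' _).trans_eq ?_
  exact FiniteField.X_pow_card_sub_X_natDegree_eq _ hN

theorem one_lt_absNorm (w : FPlace L) : 1 < Ideal.absNorm w.asIdeal := by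
  obtain ⟨A, hA⟩ := exists_liesOverPlace w
  obtain ⟨q, f, hq, -, hf, hN⟩ := exists_prime_absNorm hA
  rw [hN]
  exact Nat.one_lt_pow hf.ne' hq.one_lt

end Residue

section Over

variable {K L : IntermediateField ℚ Qbar} [NumberField K] [NumberField L] [Algebra K L]
  (hcoe : ∀ x : K, ((algebraMap K L x : L) : Qbar) = x)

include hcoe

omit [NumberField K] [NumberField L] in
theorem le_of_coe_algebraMap : K ≤ L := fun x hx => by
  rw [show x = ((algebraMap K L ⟨x, hx⟩ : L) : Qbar) from (hcoe ⟨x, hx⟩).symm]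
  exact SetLike.coe_mem _

omit [NumberField K] [NumberField L] in
theorem fixingSubgroup_le_of_coe : L.fixingSubgroup ≤ K.fixingSubgroup :=
  IntermediateField.fixingSubgroup_antitone (le_of_coe_algebraMap hcoe)

theorem liesOverPlace_below {A : ValuationSubring Qbar} {w : FPlace L} (h : LiesOverPlace A w) :
    LiesOverPlace A (Orbital.below K w) := by
  intro x
  rw [← hcoe x, h, Orbital.valuation_algebraMap_below]
  exact pow_le_one_iff (Orbital.ram_pos w).ne'

theorem below_eq_of_liesOverPlace {A : ValuationSubring Qbar} {w : FPlace L} {v : FPlace K}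
    (hw : LiesOverPlace A w) (hv : LiesOverPlace A v) : Orbital.below K w = v :=
  BianchiForm.place_unique (liesOverPlace_below hcoe hw) hv

/-- A valuation subring over `v` lies over some place of `L` above `v`. -/
theorem exists_over {A : ValuationSubring Qbar} {v : FPlace K} (hv : LiesOverPlace A v) :
    ∃ w : Orbital.Over L v, LiesOverPlace A w.1 := by
  obtain ⟨q, -, hq, hqA, -, -⟩ := exists_prime_absNorm hv
  obtain ⟨w, hw, -, -⟩ := BianchiForm.exists_place (K := L) hq hqA
  exact ⟨⟨w, below_eq_of_liesOverPlace hcoe hw hv⟩, hw⟩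

theorem exists_liesOverPlace_over {v : FPlace K} (w : Orbital.Over L v) :
    ∃ A : ValuationSubring Qbar, LiesOverPlace A w.1 ∧ LiesOverPlace A v := by
  obtain ⟨A, hA⟩ := exists_liesOverPlace w.1
  exact ⟨A, hA, w.2 ▸ liesOverPlace_below hcoe hA⟩

/-- With equal residue fields, decomposition elements over `K` agree on `L` with inertia
elements. -/
theorem exists_inertia_eqOn_of_absNorm_eq {A : ValuationSubring Qbar} {v : FPlace K}
    {w : FPlace L} (hw : LiesOverPlace A w) (hv : LiesOverPlace A v)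
    (hN : Ideal.absNorm w.asIdeal = Ideal.absNorm v.asIdeal) {d : Γℚ}
    (hd : d ∈ A.decompositionSubgroup ℚ) (hdK : d ∈ K.fixingSubgroup) :
    ∃ σ ∈ A.inertiaSubgroupIn ℚ, ∀ x ∈ L, σ x = d x := by
  obtain ⟨q, -, hq, hqA, -, -⟩ := exists_prime_absNorm hv
  refine Gal.exists_mem_inertia_eqOn hq hqA L d fun x hxL hx => ?_
  obtain ⟨a, rfl⟩ := exists_ringOfIntegers hx hxL
  have : w.asIdeal.LiesOver v.asIdeal :=
    ⟨(congrArg HeightOneSpectrum.asIdeal (below_eq_of_liesOverPlace hcoe hw hv)).symm⟩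
  have := v.isMaximal
  have : Finite (𝓞 L ⧸ w.asIdeal) := Ideal.finiteQuotientOfFreeOfNeBot _ w.ne_bot
  have hinj : Function.Injective (algebraMap (𝓞 K ⧸ v.asIdeal) (𝓞 L ⧸ w.asIdeal)) :=
    FaithfulSMul.algebraMap_injective _ _
  have hbij := hinj.bijective_of_nat_card_le (by
    rw [Ideal.absNorm_apply, Ideal.absNorm_apply, Submodule.cardQuot_apply,
      Submodule.cardQuot_apply] at hN
    exact hN.le)
  obtain ⟨y, hy⟩ := hbij.2 (Ideal.Quotient.mk w.asIdeal a)
  obtain ⟨b, rfl⟩ := Ideal.Quotient.mk_surjective y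
  rw [Ideal.Quotient.algebraMap_mk_of_liesOver, Ideal.Quotient.eq,
    ← mem_nonunits_ringOfIntegers hw] at hy
  have hb : ((((algebraMap (𝓞 K) (𝓞 L) b - a : 𝓞 L) : L)) : Qbar) =
      ((b : K) : Qbar) - ((a : L) : Qbar) := by
    rw [← hcoe]; rfl
  rw [hb] at hy
  have hdb : d ((b : K) : Qbar) = ((b : K) : Qbar) :=
    (IntermediateField.mem_fixingSubgroup_iff _ _).mp hdK _ (b : K).2
  have h1 := (Gal.decomposition_mem_nonunits_iff hd).mpr hy
  rw [map_sub, hdb] at h1
  have h2 := sub_mem hy h1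
  rwa [sub_sub_sub_cancel_left] at h2

omit hcoe in
theorem absNorm_eq_pow_deg {v : FPlace K} (w : Orbital.Over L v) :
    Ideal.absNorm w.1.asIdeal =
      Ideal.absNorm v.asIdeal ^ v.asIdeal.inertiaDeg' w.1.asIdeal := by
  have : w.1.asIdeal.LiesOver v.asIdeal := ⟨(congrArg HeightOneSpectrum.asIdeal w.2).symm⟩
  exact Ideal.absNorm_eq_pow_inertiaDeg'_of_liesOver w.1.asIdeal v.asIdeal v.isPrime v.ne_bot

omit hcoe in
/-- The fundamental identity `∑ e f = [L : K]` for the places above `v`. -/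
theorem sum_ram_mul_deg (v : FPlace K) :
    ∑ w : Orbital.Over L v, Orbital.ram K w.1 * v.asIdeal.inertiaDeg' w.1.asIdeal =
      Module.finrank K L := by
  classical
  let e : Orbital.Over L v ≃ v.asIdeal.primesOver (𝓞 L) :=
    { toFun := fun w =>
        ⟨w.1.asIdeal, w.1.isPrime, ⟨(congrArg HeightOneSpectrum.asIdeal w.2).symm⟩⟩
      invFun := fun P => ⟨⟨P.1, P.2.1,
          have := P.2.2; Ideal.ne_bot_of_liesOver_of_ne_bot v.ne_bot P.1⟩,
        HeightOneSpectrum.ext P.2.2.over.symm⟩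
      left_inv := fun _ => rfl
      right_inv := fun _ => rfl }
  have := Fintype.ofEquiv _ e
  have : v.asIdeal.IsMaximal := v.isMaximal
  rw [IsFractionRing.finrank_eq (𝓞 K) K (𝓞 L) L,
    ← Ideal.sum_ramification_inertia_eq_finrank v.asIdeal (𝓞 L), ← e.sum_comp]
  refine Finset.sum_congr rfl fun w _ => ?_
  have : w.1.asIdeal.LiesOver v.asIdeal := ⟨(congrArg HeightOneSpectrum.asIdeal w.2).symm⟩
  have := w.1.isPrime
  have := w.1.isMaximal
  show _ = w.1.asIdeal.ramificationIdx (𝓞 K) * w.1.asIdeal.inertiaDeg (𝓞 K)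
  rw [Orbital.ram, w.2, Ideal.ramificationIdx'_eq_ramificationIdx _ _ v.ne_bot,
    Ideal.inertiaDeg'_eq_inertiaDeg]

end Over

end Fermat.Agent.ResidualThree
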