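import Fermat.Agent.ResidualThree.Galois.GroupSplit
import Fermat.Agent.ResidualThree.Galois.PlacesOver
import Fermat.Agent.ResidualThree.Interfaces

/-!
# Decomposition of the places of `K` in the cubic extension `L`

`L/K` is cyclic of degree three.  A decomposition element outside the quaternion subgroup leaves
one place above a place of `K`; otherwise there are three.  Where `ρ|K` is unramified this is read
off from a Frobenius element `s`: three places of the same norm if `ρ s` lies in `Q₈`, and one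
inert place with Frobenius element `s ^ 3` if not.
-/

noncomputable section

open NumberField IsDedekindDomain
open scoped Pointwise

namespace Fermat.Agent.ResidualThree

local notation "Qbar" => AlgebraicClosure ℚ
local notation "Γℚ" => (AlgebraicClosure ℚ ≃ₐ[ℚ] AlgebraicClosure ℚ)
local notation "G48" => GL (Fin 2) (ZMod 3)
local notation "M2" => Matrix (Fin 2) (Fin 2) (ZMod 3)

section Split

variable {ρ : Γℚ →* G48}
  (hdet : ∀ σ : Γℚ, Matrix.GeneralLinearGroup.det (ρ σ) =
    WeierstrassCurve.modThreeCyclotomicChar σ)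
  {K L : IntermediateField ℚ Qbar} [NumberField K] [NumberField L] [Algebra K L]
  (hcoe : ∀ x : K, ((algebraMap K L x : L) : Qbar) = x)
  (hK : ∀ σ : Γℚ, σ ∈ K.fixingSubgroup ↔ WeierstrassCurve.modThreeCyclotomicChar σ = 1)
  (hL : ∀ σ : Γℚ, σ ∈ L.fixingSubgroup ↔
    Matrix.GeneralLinearGroup.det (ρ σ) = 1 ∧ ρ σ ^ 4 = 1)

include hdet hcoe hK hL

omit hdet hcoe hK [NumberField L] in
theorem mem_cubicField_iff {σ : Γℚ} : σ ∈ L.fixingSubgroup ↔ ρ σ ∈ quatSubgroup := by
  rw [hL, mem_quat_iff_pow_four]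

omit hcoe hL [NumberField K] in
theorem rho_mem_slThree_of_quadField {σ : Γℚ} (hσ : σ ∈ K.fixingSubgroup) : ρ σ ∈ slThree :=
  det_eq_one_iff_mem_slThree.mp (by rw [hdet]; exact (hK σ).mp hσ)

omit hcoe hL [NumberField K] [NumberField L] in
/-- Over `K`, being killed by four means lying in the quaternion subgroup. -/
theorem rho_pow_four_iff {σ : Γℚ} (hσ : σ ∈ K.fixingSubgroup) :
    ρ σ ^ 4 = 1 ↔ ρ σ ∈ quatSubgroup :=
  ⟨mem_quat_of_pow_four (rho_mem_slThree_of_quadField hdet hK hσ), pow_four_of_mem_quat⟩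

/-! ### One place -/

/-- A decomposition element over `K` outside the quaternion subgroup leaves one place above. -/
theorem subsingleton_over {v : FPlace K} {A : ValuationSubring Qbar} (hA : LiesOverPlace A v)
    {d : Γℚ} (hd : d ∈ A.decompositionSubgroup ℚ) (hdK : d ∈ K.fixingSubgroup)
    (hd4 : ρ d ^ 4 ≠ 1) : Subsingleton (Orbital.Over L v) := by
  refine ⟨fun w w' => ?_⟩
  obtain ⟨B, hBw, hBv⟩ := exists_liesOverPlace_over hcoe w
  obtain ⟨B', hBw', hBv'⟩ := exists_liesOverPlace_over hcoe w'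
  obtain ⟨τ, hτ, rfl⟩ := exists_smul_eq_of_liesOverPlace hA hBv
  obtain ⟨σ, hσ, rfl⟩ := exists_smul_eq_of_liesOverPlace hBv hBv'
  set e := τ * d * τ⁻¹ with he
  have heD : e • (τ • A) = τ • A :=
    MulAction.mem_stabilizer_iff.mp (Gal.conj_mem_decomposition hd τ)
  have heK : e ∈ K.fixingSubgroup := mul_mem (mul_mem hτ hdK) (inv_mem hτ)
  have he' : ρ e ∉ quatSubgroup := by
    intro h
    rw [he, map_mul, map_mul, map_inv] at h
    have h' := quatSubgroup_normal.conj_mem _ h (ρ τ)⁻¹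
    refine hd4 ((rho_pow_four_iff hdet hK hdK).mpr ?_)
    convert h' using 1
    group
  obtain ⟨i, hi⟩ := exists_mul_pow_mem_quat (rho_mem_slThree_of_quadField hdet hK hσ)
    (rho_mem_slThree_of_quadField hdet hK heK) he'
  have hmem : σ * e ^ i ∈ L.fixingSubgroup := by
    rw [mem_cubicField_iff hL, map_mul, map_pow]; exact hi
  have h := liesOverPlace_smul hBw hmem
  rw [mul_smul, MulAction.mem_stabilizer_iff.mp
    (pow_mem (MulAction.mem_stabilizer_iff.mpr heD) i)] at h
  exact Subtype.ext (BianchiForm.place_unique h hBw')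

/-- A decomposition element outside the quaternion subgroup leaves exactly one place. -/
theorem card_over_eq_one {v : FPlace K} {A : ValuationSubring Qbar} (hA : LiesOverPlace A v)
    {d : Γℚ} (hd : d ∈ A.decompositionSubgroup ℚ) (hdK : d ∈ K.fixingSubgroup)
    (hd4 : ρ d ^ 4 ≠ 1) : Nat.card (Orbital.Over L v) = 1 := by
  obtain ⟨w, -⟩ := exists_over (L := L) hcoe hA
  exact Nat.card_eq_one_iff_unique.mpr ⟨subsingleton_over hdet hcoe hK hL hA hd hdK hd4, ⟨w⟩⟩

/-- Inertia over `K` acting through a nontrivial element of order three leaves one place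
above. -/
theorem card_over_eq_one_of_inertia {v : FPlace K} {A : ValuationSubring Qbar}
    (hA : LiesOverPlace A v) {s : Γℚ} (hs : s ∈ A.inertiaSubgroupIn ℚ)
    (hsK : s ∈ K.fixingSubgroup) (hs1 : ρ s ≠ 1) (hs3 : ρ s ^ 3 = 1) :
    Nat.card (Orbital.Over L v) = 1 := by
  refine card_over_eq_one hdet hcoe hK hL hA (Gal.mem_inertia_iff.mp hs).1 hsK fun h => hs1 ?_
  exact eq_one_of_cube_of_quat hs3 ((rho_pow_four_iff hdet hK hsK).mp h)

/-! ### Three places -/

/-- If the decomposition group over `K` lands in the quaternion subgroup there are three places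
above. -/
theorem card_over_eq_three (hsurj : Function.Surjective ρ) {v : FPlace K}
    {A : ValuationSubring Qbar} (hA : LiesOverPlace A v)
    (hall : ∀ d ∈ A.decompositionSubgroup ℚ, d ∈ K.fixingSubgroup → ρ d ^ 4 = 1) :
    Nat.card (Orbital.Over L v) = 3 := by
  obtain ⟨g, hg⟩ := hsurj unipThree
  have hgK : g ∈ K.fixingSubgroup := by rw [hK, ← hdet, hg, unipThree_det]
  have hover : ∀ i : Fin 3, ∃ w : Orbital.Over L v, LiesOverPlace (g ^ (i : ℕ) • A) w.1 := fun i =>
    exists_over hcoe (liesOverPlace_smul hA (pow_mem hgK _))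
  choose f hf using hover
  suffices hbij : Function.Bijective f by
    rw [← Nat.card_eq_of_bijective f hbij, Nat.card_fin]
  constructor
  · intro i j hij
    obtain ⟨σ, hσ, hσA⟩ := exists_smul_eq_of_liesOverPlace (hf i) (hij ▸ hf j)
    set d := (g ^ (j : ℕ))⁻¹ * σ * g ^ (i : ℕ) with hd
    have hdD : d ∈ A.decompositionSubgroup ℚ := MulAction.mem_stabilizer_iff.mpr (by
      rw [hd, mul_smul, mul_smul, hσA, inv_smul_smul])
    have hdK : d ∈ K.fixingSubgroup := mul_mem (mul_mem (inv_mem (pow_mem hgK _))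
      (fixingSubgroup_le_of_coe hcoe hσ)) (pow_mem hgK _)
    have hdq := (rho_pow_four_iff hdet hK hdK).mp (hall d hdD hdK)
    rw [mem_cubicField_iff hL] at hσ
    have h1 := (QuotientGroup.eq_one_iff _).mpr hdq
    rw [hd, map_mul, map_mul, map_inv, map_pow, map_pow, hg, QuotientGroup.mk_mul,
      QuotientGroup.mk_mul, (QuotientGroup.eq_one_iff _).mpr hσ, mul_one, QuotientGroup.mk_inv,
      inv_mul_eq_one] at h1
    have hi := i.isLt
    have hj := j.isLt
    apply Fin.ext
    rcases le_total (i : ℕ) (j : ℕ) with h | h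
    · rw [← Nat.add_sub_cancel' h, pow_add, QuotientGroup.mk_mul, mul_eq_left,
        QuotientGroup.eq_one_iff, unipThree_pow_mem_iff] at h1
      omega
    · rw [← Nat.add_sub_cancel' h, pow_add, QuotientGroup.mk_mul, eq_comm, mul_eq_left,
        QuotientGroup.eq_one_iff, unipThree_pow_mem_iff] at h1
      omega
  · intro w
    obtain ⟨B, hBw, hBv⟩ := exists_liesOverPlace_over hcoe w
    obtain ⟨τ, hτ, rfl⟩ := exists_smul_eq_of_liesOverPlace hA hBv
    obtain ⟨k, hk⟩ := exists_pow_mul_mem_quat (s := ρ τ) (by rw [hdet]; exact (hK τ).mp hτ)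
    refine ⟨⟨2 * k % 3, Nat.mod_lt _ (by norm_num)⟩, ?_⟩
    have hmem : τ * (g ^ (2 * k % 3))⁻¹ ∈ L.fixingSubgroup := by
      rw [mem_cubicField_iff hL, map_mul, map_inv, map_pow, hg, ← QuotientGroup.eq_one_iff,
        QuotientGroup.mk_mul, QuotientGroup.mk_inv]
      have hk1 := (QuotientGroup.eq_one_iff _).mpr hk
      rw [QuotientGroup.mk_mul, mul_eq_one_iff_eq_inv'] at hk1
      rw [hk1, ← mul_inv_rev, inv_eq_one, ← QuotientGroup.mk_mul, QuotientGroup.eq_one_iff,
        ← pow_add, unipThree_pow_mem_iff]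
      omega
    have h := liesOverPlace_smul (hf ⟨2 * k % 3, Nat.mod_lt _ (by norm_num)⟩) hmem
    rw [mul_smul, inv_smul_smul] at h
    exact Subtype.ext (BianchiForm.place_unique h hBw)

omit hcoe hL [NumberField K] in
/-- `[K : ℚ] = 2`. -/
theorem finrank_quadField (hsurj : Function.Surjective ρ) : Module.finrank ℚ K = 2 := by
  rw [IntermediateField.finrank_eq_fixingSubgroup_index,
    show K.fixingSubgroup = (Matrix.GeneralLinearGroup.det : G48 →* (ZMod 3)ˣ).ker.comap ρ by
      ext σ; rw [hK, Subgroup.mem_comap, MonoidHom.mem_ker, hdet],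
    Subgroup.index_comap_of_surjective _ hsurj, index_det_ker]

omit hcoe in
/-- `[L : K] = 3`. -/
theorem finrank_quad_cubic (hsurj : Function.Surjective ρ) : Module.finrank K L = 3 := by
  have h2 := finrank_quadField hdet hK hsurj
  have h6 : Module.finrank ℚ L = 6 := by
    rw [IntermediateField.finrank_eq_fixingSubgroup_index,
      show L.fixingSubgroup = quatSubgroup.comap ρ by
        ext σ; rw [mem_cubicField_iff hL, Subgroup.mem_comap],
      Subgroup.index_comap_of_surjective _ hsurj, index_quatSubgroup]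
  have h := Module.finrank_mul_finrank ℚ K L
  rw [h2, h6] at h
  omega

/-! ### Places where `ρ|K` is unramified -/

omit hdet hcoe hK hL in
/-- Frobenius elements over `K` at one exponent have one image. -/
theorem rho_eq_of_isFrobeniusAt {v : FPlace K} {A : ValuationSubring Qbar}
    (hA : LiesOverPlace A v)
    (hunr : ∀ B : ValuationSubring Qbar, LiesOverPlace B v →
      ∀ σ ∈ B.inertiaSubgroupIn ℚ, σ ∈ K.fixingSubgroup → ρ σ = 1)
    {σ τ : Γℚ} (hσ : σ ∈ K.fixingSubgroup) (hτ : τ ∈ K.fixingSubgroup) {N : ℕ}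
    (hσF : A.IsFrobeniusAt σ N) (hτF : A.IsFrobeniusAt τ N) : ρ σ = ρ τ := by
  have h := hunr A hA _ (Gal.inv_mul_mem_inertia hσF hτF) (mul_mem (inv_mem hσ) hτ)
  rw [map_mul, map_inv, inv_mul_eq_one] at h
  exact h

omit hdet hK hL in
/-- The Frobenius elements above are conjugates of powers of the one below. -/
theorem rho_frobenius_conj {v : FPlace K}
    (hunr : ∀ B : ValuationSubring Qbar, LiesOverPlace B v →
      ∀ σ ∈ B.inertiaSubgroupIn ℚ, σ ∈ K.fixingSubgroup → ρ σ = 1)
    {A : ValuationSubring Qbar} (hA : LiesOverPlace A v) {s : Γℚ} (hsK : s ∈ K.fixingSubgroup)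
    (hs : A.IsFrobeniusAt s (Ideal.absNorm v.asIdeal)) (w : Orbital.Over L v) {m : ℕ}
    (hm : Ideal.absNorm w.1.asIdeal = Ideal.absNorm v.asIdeal ^ m)
    {B : ValuationSubring Qbar} (hB : LiesOverPlace B w.1) {σ : Γℚ} (hσ : σ ∈ L.fixingSubgroup)
    (hσF : B.IsFrobeniusAt σ (Ideal.absNorm w.1.asIdeal)) :
    ∃ t ∈ K.fixingSubgroup, ρ σ = ρ t * ρ s ^ m * (ρ t)⁻¹ := by
  have hBv : LiesOverPlace B v := w.2 ▸ liesOverPlace_below hcoe hB
  obtain ⟨t, ht, rfl⟩ := exists_smul_eq_of_liesOverPlace hA hBv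
  refine ⟨t, ht, ?_⟩
  have h1 := Gal.isFrobeniusAt_conj (isFrobeniusAt_pow hs m) t
  rw [← hm] at h1
  rw [rho_eq_of_isFrobeniusAt hBv hunr (fixingSubgroup_le_of_coe hcoe hσ)
    (mul_mem (mul_mem ht (pow_mem hsK m)) (inv_mem ht)) hσF h1, map_mul, map_mul, map_inv,
    map_pow]

omit hdet hK in
/-- At a place over `v` the residue degree detects the image of the Frobenius element. -/
theorem rho_frobenius_pow_mem_quat {v : FPlace K}
    (hunr : ∀ B : ValuationSubring Qbar, LiesOverPlace B v →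
      ∀ σ ∈ B.inertiaSubgroupIn ℚ, σ ∈ K.fixingSubgroup → ρ σ = 1)
    {A : ValuationSubring Qbar} (hA : LiesOverPlace A v) {s : Γℚ} (hsK : s ∈ K.fixingSubgroup)
    (hs : A.IsFrobeniusAt s (Ideal.absNorm v.asIdeal)) (w : Orbital.Over L v) {m : ℕ}
    (hm : Ideal.absNorm w.1.asIdeal = Ideal.absNorm v.asIdeal ^ m) :
    ρ s ^ m ∈ quatSubgroup := by
  obtain ⟨B, hBw, -⟩ := exists_liesOverPlace_over hcoe w
  obtain ⟨σ, hσ, hσF⟩ := exists_isFrobeniusAt_absNorm hBw
  obtain ⟨t, -, he⟩ := rho_frobenius_conj hcoe hunr hA hsK hs w hm hBw hσ hσF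
  rw [mem_cubicField_iff hL] at hσ
  have h' := quatSubgroup_normal.conj_mem _ hσ (ρ t)⁻¹
  rw [he] at h'
  convert h' using 1
  group

/-- A Frobenius element in the quaternion subgroup: three places of the same norm. -/
theorem split_of_frobenius (hsurj : Function.Surjective ρ) {v : FPlace K}
    (hunr : ∀ B : ValuationSubring Qbar, LiesOverPlace B v →
      ∀ σ ∈ B.inertiaSubgroupIn ℚ, σ ∈ K.fixingSubgroup → ρ σ = 1)
    {A : ValuationSubring Qbar} (hA : LiesOverPlace A v) {s : Γℚ} (hsK : s ∈ K.fixingSubgroup)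
    (hs : A.IsFrobeniusAt s (Ideal.absNorm v.asIdeal)) (hs4 : ρ s ^ 4 = 1) :
    Nat.card (Orbital.Over L v) = 3 ∧
      ∀ w : Orbital.Over L v, Orbital.ram K w.1 = 1 ∧
        Ideal.absNorm w.1.asIdeal = Ideal.absNorm v.asIdeal ∧
        ∃ (B : ValuationSubring Qbar) (t : Γℚ), t ∈ K.fixingSubgroup ∧ LiesOverPlace B w.1 ∧
          LiesOverPlace B v ∧ t * s * t⁻¹ ∈ L.fixingSubgroup ∧
          B.IsFrobeniusAt (t * s * t⁻¹) (Ideal.absNorm w.1.asIdeal) := by
  have hsq := (rho_pow_four_iff hdet hK hsK).mp hs4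
  have key : ∀ w : Orbital.Over L v, Ideal.absNorm w.1.asIdeal = Ideal.absNorm v.asIdeal ∧
        ∃ (B : ValuationSubring Qbar) (t : Γℚ), t ∈ K.fixingSubgroup ∧ LiesOverPlace B w.1 ∧
          LiesOverPlace B v ∧ t * s * t⁻¹ ∈ L.fixingSubgroup ∧
          B.IsFrobeniusAt (t * s * t⁻¹) (Ideal.absNorm w.1.asIdeal) := by
    intro w
    obtain ⟨B, hBw, hBv⟩ := exists_liesOverPlace_over hcoe w
    obtain ⟨t, ht, rfl⟩ := exists_smul_eq_of_liesOverPlace hA hBv
    have hmem : t * s * t⁻¹ ∈ L.fixingSubgroup := by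
      rw [mem_cubicField_iff hL, map_mul, map_mul, map_inv]
      exact quatSubgroup_normal.conj_mem _ hsq _
    have hF := Gal.isFrobeniusAt_conj hs t
    have hle := absNorm_le_of_isFrobeniusAt hBw hmem (one_lt_absNorm v) hF
    have hge : Ideal.absNorm v.asIdeal ≤ Ideal.absNorm w.1.asIdeal := by
      rw [absNorm_eq_pow_deg w]
      refine Nat.le_self_pow (fun h0 => ?_) _
      have h := absNorm_eq_pow_deg w
      rw [h0, pow_zero] at h
      exact (one_lt_absNorm w.1).ne' h
    have he := le_antisymm hle hge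
    exact ⟨he, t • A, t, ht, hBw, hBv, hmem, he.symm ▸ hF⟩
  have hcard : Nat.card (Orbital.Over L v) = 3 := by
    obtain ⟨w, hw⟩ := exists_over (L := L) hcoe hA
    refine card_over_eq_three hdet hcoe hK hL hsurj hA fun d hd hdK => ?_
    obtain ⟨σ, hσI, hσd⟩ := exists_inertia_eqOn_of_absNorm_eq hcoe hw hA (key w).1 hd hdK
    have hσK : σ ∈ K.fixingSubgroup := (IntermediateField.mem_fixingSubgroup_iff _ _).mpr
      fun x hx => (hσd x (le_of_coe_algebraMap hcoe hx)).trans
        ((IntermediateField.mem_fixingSubgroup_iff _ _).mp hdK x hx)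
    have hmem : σ⁻¹ * d ∈ L.fixingSubgroup := (IntermediateField.mem_fixingSubgroup_iff _ _).mpr
      fun x hx => by rw [AlgEquiv.mul_apply, ← hσd x hx]; exact σ.symm_apply_apply x
    rw [mem_cubicField_iff hL, map_mul, map_inv, hunr A hA σ hσI hσK, inv_one, one_mul] at hmem
    exact (rho_pow_four_iff hdet hK hdK).mpr hmem
  refine ⟨hcard, fun w => ⟨?_, key w⟩⟩
  have hf : ∀ u : Orbital.Over L v, v.asIdeal.inertiaDeg' u.1.asIdeal = 1 := fun u => by
    have h := absNorm_eq_pow_deg u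
    rw [(key u).1] at h
    exact Nat.pow_right_injective (one_lt_absNorm v) (h.symm.trans (pow_one _).symm)
  have hsum := sum_ram_mul_deg (L := L) v
  rw [finrank_quad_cubic hdet hK hL hsurj] at hsum
  simp only [hf, mul_one] at hsum
  have hone : ∀ u ∈ (Finset.univ : Finset (Orbital.Over L v)), 1 ≤ Orbital.ram K u.1 := fun u _ =>
    Orbital.ram_pos u.1
  have hconst : ∑ _u : Orbital.Over L v, 1 = ∑ u : Orbital.Over L v, Orbital.ram K u.1 := by
    rw [hsum, Finset.sum_const, Finset.card_univ, smul_eq_mul, mul_one, ← Nat.card_eq_fintype_card,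
      hcard]
  exact ((Finset.sum_eq_sum_iff_of_le hone).mp hconst w (Finset.mem_univ _)).symm

/-- A Frobenius element outside the quaternion subgroup: one inert place. -/
theorem inert_of_frobenius (hsurj : Function.Surjective ρ) {v : FPlace K}
    (hunr : ∀ B : ValuationSubring Qbar, LiesOverPlace B v →
      ∀ σ ∈ B.inertiaSubgroupIn ℚ, σ ∈ K.fixingSubgroup → ρ σ = 1)
    {A : ValuationSubring Qbar} (hA : LiesOverPlace A v) {s : Γℚ} (hsK : s ∈ K.fixingSubgroup)
    (hs : A.IsFrobeniusAt s (Ideal.absNorm v.asIdeal)) (hs4 : ρ s ^ 4 ≠ 1) :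
    ∃ w : Orbital.Over L v, (∀ w' : Orbital.Over L v, w' = w) ∧ Orbital.ram K w.1 = 1 ∧
      Ideal.absNorm w.1.asIdeal = Ideal.absNorm v.asIdeal ^ 3 ∧ LiesOverPlace A w.1 ∧
      s ^ 3 ∈ L.fixingSubgroup ∧ A.IsFrobeniusAt (s ^ 3) (Ideal.absNorm w.1.asIdeal) := by
  have hsub := subsingleton_over (v := v) hdet hcoe hK hL hA hs.mem_decompositionSubgroup hsK hs4
  have hns : ρ s ∉ quatSubgroup := fun h => hs4 ((rho_pow_four_iff hdet hK hsK).mpr h)
  obtain ⟨w, hw⟩ := exists_over (L := L) hcoe hA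
  have hs3 : s ^ 3 ∈ L.fixingSubgroup := by
    rw [mem_cubicField_iff hL, map_pow]
    exact cube_mem_quat (rho_mem_slThree_of_quadField hdet hK hsK)
  have hF := isFrobeniusAt_pow hs 3
  have hN := one_lt_absNorm v
  set m := v.asIdeal.inertiaDeg' w.1.asIdeal with hmdef
  have hm : Ideal.absNorm w.1.asIdeal = Ideal.absNorm v.asIdeal ^ m := absNorm_eq_pow_deg w
  have hle : m ≤ 3 := by
    have h := absNorm_le_of_isFrobeniusAt hw hs3 (Nat.one_lt_pow (by norm_num) hN) hF
    rw [hm] at h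
    exact (Nat.pow_le_pow_iff_right hN).mp h
  have hpos : 0 < m := by
    refine Nat.pos_of_ne_zero fun h0 => ?_
    rw [h0, pow_zero] at hm
    exact (one_lt_absNorm w.1).ne' hm
  have hq := rho_frobenius_pow_mem_quat hcoe hL hunr hA hsK hs w hm
  have hm3 : m = 3 := by
    interval_cases m
    · exact absurd (by rwa [pow_one] at hq) hns
    · have h3 := cube_mem_quat (rho_mem_slThree_of_quadField hdet hK hsK)
      rw [pow_succ'] at h3
      exact absurd ((Subgroup.mul_mem_cancel_right quatSubgroup hq).mp h3) hns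
    · rfl
  rw [hm3] at hm
  refine ⟨w, fun w' => Subsingleton.elim _ _, ?_, hm, hw, hs3, hm.symm ▸ hF⟩
  have hsum := sum_ram_mul_deg (L := L) v
  rw [finrank_quad_cubic hdet hK hL hsurj,
    Fintype.sum_eq_single w fun w' h => absurd (Subsingleton.elim w' w) h, ← hmdef, hm3] at hsum
  omega

omit hdet hcoe hK [NumberField L] in
/-- An element over `L` with image killed by `3` acts trivially. -/
theorem rho_eq_one_of_cube {σ : Γℚ} (hσ : σ ∈ L.fixingSubgroup) (h3 : ρ σ ^ 3 = 1) : ρ σ = 1 :=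
  eq_one_of_cube_of_quat h3 ((mem_cubicField_iff hL).mp hσ)

omit hdet hcoe hK in
/-- `ρ|L` is unramified away from `3`. -/
theorem rho_inertia_away_three (hu : IsUnipotentAwayThree ρ) {B : ValuationSubring Qbar}
    {w : FPlace L} (hB : LiesOverPlace B w) (h3 : ¬ B.LiesOverPrime 3) {σ : Γℚ}
    (hσ : σ ∈ B.inertiaSubgroupIn ℚ) (hσL : σ ∈ L.fixingSubgroup) : ρ σ = 1 := by
  obtain ⟨q, -, hq, hqB, -, -⟩ := exists_prime_absNorm hB
  exact rho_eq_one_of_cube hL hσL
    (hu q hq (fun e => h3 (e ▸ hqB)) B hqB σ hσ)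

end Split

end Fermat.Agent.ResidualThree
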