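import Fermat.Agent.Gal.Density
import Fermat.Agent.ResidualThree.Galois.Split

/-!
# Primes with prescribed behaviour in the cubic extension

By a weak form of Chebotarev's theorem there are infinitely many places of `K` split in `L` with
trivial Frobenius image, and rational primes `p ≡ -1 (mod M)`, inert in `K`, whose Frobenius
element has image of order eight.  These are the auxiliary primes used in the descent from `L`.
-/

noncomputable section

open NumberField IsDedekindDomain IntermediateField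
open scoped Pointwise

namespace Fermat.Agent.ResidualThree

local notation "Qbar" => AlgebraicClosure ℚ
local notation "Γℚ" => (AlgebraicClosure ℚ ≃ₐ[ℚ] AlgebraicClosure ℚ)
local notation "G48" => GL (Fin 2) (ZMod 3)
local notation "M2" => Matrix (Fin 2) (Fin 2) (ZMod 3)

variable {ρ : Γℚ →* G48}

/-- An element inverting the `M`-th roots of unity with image of order eight. -/
theorem exists_octic_inverting (hsurj : Function.Surjective ρ)
    (hdet : ∀ σ : Γℚ, Matrix.GeneralLinearGroup.det (ρ σ) =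
      WeierstrassCurve.modThreeCyclotomicChar σ)
    {M : ℕ} (hM : 0 < M) (h3 : 3 ∣ M) {ζ : Qbar} (hζ : IsPrimitiveRoot ζ M) :
    ∃ g : Γℚ, g ζ = ζ⁻¹ ∧ ρ g = octThree := by
  have : NeZero M := ⟨hM.ne'⟩
  obtain ⟨c, hc⟩ : ∃ c : Γℚ, c ζ = ζ⁻¹ := by
    have e : minpoly ℚ ζ⁻¹ = minpoly ℚ ζ := by
      rw [← Polynomial.cyclotomic_eq_minpoly_rat hζ.inv hM,
        ← Polynomial.cyclotomic_eq_minpoly_rat hζ hM]
    exact Normal.minpoly_eq_iff_mem_orbit (E := Qbar) |>.mp e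
  have hcomm : ∀ (X Y : Γℚ) (η : Qbar), η ^ M = 1 → X (Y η) = Y (X η) := by
    intro X Y η hη
    obtain ⟨i, -, hi⟩ := hζ.eq_pow_of_pow_eq_one (show X ζ ^ M = 1 by
      rw [← map_pow, hζ.pow_eq_one, map_one])
    obtain ⟨j, -, hj⟩ := hζ.eq_pow_of_pow_eq_one (show Y ζ ^ M = 1 by
      rw [← map_pow, hζ.pow_eq_one, map_one])
    obtain ⟨k, -, rfl⟩ := hζ.eq_pow_of_pow_eq_one hη
    rw [map_pow, map_pow, map_pow, map_pow, ← hi, ← hj, map_pow, map_pow, ← hi, ← hj, ← pow_mul,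
      ← pow_mul, ← pow_mul, ← pow_mul, mul_left_comm i j k]
  obtain ⟨h, hh, hρh⟩ : ∃ h : Γℚ, h ζ = ζ ∧ ρ h = (ρ c)⁻¹ * octThree := by
    have hmem : (ρ c)⁻¹ * octThree ∈ (MulAction.stabilizer Γℚ ζ).map ρ := by
      refine mem_of_commutator_mem _ (fun x y => ?_) ?_
      · obtain ⟨X, rfl⟩ := hsurj x
        obtain ⟨Y, rfl⟩ := hsurj y
        refine ⟨X * Y * X⁻¹ * Y⁻¹, ?_, by rw [map_mul, map_mul, map_mul, map_inv, map_inv]⟩
        set η := X⁻¹ (Y⁻¹ ζ) with hη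
        have hηM : η ^ M = 1 := by
          rw [hη, ← map_pow, ← map_pow, hζ.pow_eq_one, map_one, map_one]
        show (X * Y * X⁻¹ * Y⁻¹) ζ = ζ
        rw [AlgEquiv.mul_apply, AlgEquiv.mul_apply, AlgEquiv.mul_apply, ← hη, hcomm X Y η hηM, hη,
          ← AlgEquiv.mul_apply X, mul_inv_cancel, AlgEquiv.one_apply, ← AlgEquiv.mul_apply Y,
          mul_inv_cancel, AlgEquiv.one_apply]
      · have hcd : ((ρ c : G48) : M2).det = -1 := by
          obtain ⟨m, hm⟩ := h3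
          have hz : IsPrimitiveRoot (ζ ^ m) 3 := hζ.pow hM (by rw [hm, mul_comm])
          have hne : WeierstrassCurve.modThreeCyclotomicChar c ≠ 1 := fun h1 => by
            have hcz := (BianchiForm.chi_eq_one_iff hz c).mp h1
            rw [map_pow, hc, inv_pow] at hcz
            have h1 := inv_mul_cancel₀ (hz.ne_zero (by norm_num))
            rw [hcz, ← pow_two] at h1
            exact absurd (hz.dvd_of_pow_eq_one 2 h1) (by norm_num)
          rcases (by decide : ∀ u : (ZMod 3)ˣ, u = 1 ∨ (u : ZMod 3) = -1)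
            (WeierstrassCurve.modThreeCyclotomicChar c) with e | e
          · exact absurd e hne
          · rw [← Matrix.GeneralLinearGroup.val_det_apply, hdet, e]
        show (((ρ c)⁻¹ * octThree : G48) : M2).det = 1
        rw [Units.val_mul, Matrix.det_mul, Matrix.coe_units_inv, Matrix.det_nonsing_inv, hcd,
          octThree_det]
        simp
    obtain ⟨h, hh, he⟩ := hmem
    exact ⟨h, hh, he⟩
  refine ⟨c * h, by rw [AlgEquiv.mul_apply, hh, hc], ?_⟩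
  rw [map_mul, hρh, mul_inv_cancel_left]

variable (hdet : ∀ σ : Γℚ, Matrix.GeneralLinearGroup.det (ρ σ) =
    WeierstrassCurve.modThreeCyclotomicChar σ)
  {K L : IntermediateField ℚ Qbar} [NumberField K] [NumberField L] [Algebra K L]
  (hcoe : ∀ x : K, ((algebraMap K L x : L) : Qbar) = x)
  (hK : ∀ σ : Γℚ, σ ∈ K.fixingSubgroup ↔ WeierstrassCurve.modThreeCyclotomicChar σ = 1)
  (hL : ∀ σ : Γℚ, σ ∈ L.fixingSubgroup ↔
    Matrix.GeneralLinearGroup.det (ρ σ) = 1 ∧ ρ σ ^ 4 = 1)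
  (hρ : Continuous ρ) (hsurj : Function.Surjective ρ)

include hdet hcoe hK hL hρ hsurj

/-- Split places with trivial Frobenius image, outside any finite set of primes. -/
theorem exists_split_trivial (S₀ : Finset ℕ) :
    ∃ (ℓ : ℕ) (v : FPlace K) (A : ValuationSubring Qbar) (s : Γℚ),
      ℓ.Prime ∧ ℓ ∉ S₀ ∧ Ideal.absNorm v.asIdeal = ℓ ∧ A.LiesOverPrime ℓ ∧ LiesOverPlace A v ∧
      (∀ B : ValuationSubring Qbar, LiesOverPlace B v →
        ∀ σ ∈ B.inertiaSubgroupIn ℚ, σ ∈ K.fixingSubgroup → ρ σ = 1) ∧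
      s ∈ K.fixingSubgroup ∧ A.IsFrobeniusAt s (Ideal.absNorm v.asIdeal) ∧ ρ s = 1 ∧
      Nat.card (Orbital.Over L v) = 3 := by
  have hfac := BianchiForm.factors_of_continuous ρ hρ
  obtain ⟨S₁, hS₁⟩ := Gal.exists_finset_unramified ρ hfac
  obtain ⟨ℓ, hℓ, hℓS, A, hA, s, hs, a, b, -, hb⟩ :=
    Gal.exists_frobenius_map_generates ρ hfac 1 (S₀ ∪ S₁)
  rw [Finset.mem_union, not_or] at hℓS
  rw [map_one, one_pow] at hb
  have hsK : s ∈ K.fixingSubgroup := by rw [hK, ← hdet, hb, map_one]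
  obtain ⟨v, hv, -, -⟩ := BianchiForm.exists_place (K := K) hℓ hA
  obtain ⟨q, f, hq, hqA, hf, hN⟩ := exists_prime_absNorm hv
  obtain rfl := Gal.liesOverPrime_unique hℓ hq hA hqA
  have hle := absNorm_le_of_isFrobeniusAt hv hsK hℓ.one_lt hs
  rw [hN] at hle
  have hf1 : f = 1 := le_antisymm (by
    have := (Nat.pow_le_pow_iff_right hℓ.one_lt).mp (hle.trans_eq (pow_one ℓ).symm)
    exact this) hf
  rw [hf1, pow_one] at hN
  have hunr : ∀ B : ValuationSubring Qbar, LiesOverPlace B v →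
      ∀ σ ∈ B.inertiaSubgroupIn ℚ, σ ∈ K.fixingSubgroup → ρ σ = 1 := fun B hB σ hσ _ => by
    obtain ⟨q', f', hq', hqB, hf', hN'⟩ := exists_prime_absNorm hB
    obtain rfl : ℓ = q' := (Nat.prime_dvd_prime_iff_eq hℓ hq').mp (hℓ.dvd_of_dvd_pow (n := f')
      (by rw [← hN', hN]))
    exact hS₁ ℓ hℓ hℓS.2 B hqB σ hσ
  refine ⟨ℓ, v, A, s, hℓ, hℓS.1, hN, hA, hv, hunr, hsK, hN.symm ▸ hs, hb, ?_⟩
  exact (split_of_frobenius hdet hcoe hK hL hsurj hunr hv hsK (hN.symm ▸ hs)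
    (by rw [hb, one_pow])).1

/-- There are infinitely many such places. -/
theorem infinite_split_trivial :
    {v : FPlace K | Nat.card (Orbital.Over L v) = 3 ∧
      (∀ B : ValuationSubring Qbar, LiesOverPlace B v →
        ∀ σ ∈ B.inertiaSubgroupIn ℚ, σ ∈ K.fixingSubgroup → ρ σ = 1) ∧
      ∃ (A : ValuationSubring Qbar) (s : Γℚ), LiesOverPlace A v ∧ s ∈ K.fixingSubgroup ∧
        A.IsFrobeniusAt s (Ideal.absNorm v.asIdeal) ∧ ρ s = 1}.Infinite := by
  intro hfin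
  obtain ⟨ℓ, v, A, s, hℓ, hℓS, hN, -, hv, hunr, hsK, hs, hρs, hc⟩ :=
    exists_split_trivial hdet hcoe hK hL hρ hsurj
      (hfin.toFinset.image fun v => Ideal.absNorm v.asIdeal)
  exact hℓS (Finset.mem_image.mpr
    ⟨v, hfin.mem_toFinset.mpr ⟨hc, hunr, A, s, hv, hsK, hs, hρs⟩, hN⟩)

/-- Inert rational primes `p ≡ -1 (mod M)` with Frobenius image of order eight. -/
theorem exists_inert_octic {M : ℕ} (hM : 0 < M) (h3 : 3 ∣ M) (S₀ : Finset ℕ) :
    ∃ (p : ℕ) (v : FPlace K) (A : ValuationSubring Qbar) (σ : Γℚ),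
      p.Prime ∧ p ∉ S₀ ∧ (p : ZMod M) = -1 ∧ A.LiesOverPrime p ∧ A.IsFrobeniusAt σ p ∧
      orderOf (ρ σ) = 8 ∧ v.asIdeal = Ideal.span {(p : 𝓞 K)} ∧
      Ideal.absNorm v.asIdeal = p ^ 2 ∧ LiesOverPlace A v ∧
      (∀ B : ValuationSubring Qbar, LiesOverPlace B v →
        ∀ τ ∈ B.inertiaSubgroupIn ℚ, τ ∈ K.fixingSubgroup → ρ τ = 1) ∧
      σ ^ 2 ∈ K.fixingSubgroup ∧ A.IsFrobeniusAt (σ ^ 2) (Ideal.absNorm v.asIdeal) ∧
      Nat.card (Orbital.Over L v) = 3 ∧ quatTrace (ρ σ ^ 2) = 0 := by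
  have hfac := BianchiForm.factors_of_continuous ρ hρ
  obtain ⟨S₁, hS₁⟩ := Gal.exists_finset_unramified ρ hfac
  obtain ⟨E, hE, hEρ⟩ := hfac
  have : NeZero M := ⟨hM.ne'⟩
  obtain ⟨ζ, hζ⟩ := HasEnoughRootsOfUnity.exists_primitiveRoot Qbar M
  have : FiniteDimensional ℚ ℚ⟮ζ⟯ :=
    IntermediateField.adjoin.finiteDimensional (Algebra.IsAlgebraic.isAlgebraic ζ).isIntegral
  obtain ⟨g, hgζ, hgρ⟩ := exists_octic_inverting hsurj hdet hM h3 hζ
  obtain ⟨p, hp, hpS, A, hA, σ, hσ, a, b, ha, hb⟩ :=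
    Gal.exists_frobenius_generates (E ⊔ ℚ⟮ζ⟯) g (S₀ ∪ S₁ ∪ M.primeFactors)
  simp only [Finset.mem_union, not_or] at hpS
  have key : ∀ u w : Γℚ, (∀ x ∈ E ⊔ ℚ⟮ζ⟯, u x = w x) → ρ u = ρ w := fun u w huw => by
    have h1 := hEρ (w⁻¹ * u) fun x hx => by
      rw [AlgEquiv.mul_apply, huw x (le_sup_left (a := E) hx)]; exact w.symm_apply_apply x
    rw [map_mul, map_inv, inv_mul_eq_one] at h1
    exact h1.symm
  have hρg : ρ g = ρ σ ^ a := (key _ _ ha).trans (map_pow ρ σ a)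
  have hρσ : ρ σ = octThree ^ b := by rw [key _ _ hb, map_pow, hgρ]
  have hodd : Odd b := by
    rcases Nat.even_or_odd b with he | ho
    · exfalso
      obtain ⟨j, rfl⟩ := he
      rw [hgρ, hρσ, ← pow_mul] at hρg
      refine neg_one_ne_one_gl ?_
      rw [← octThree_pow_four]
      calc octThree ^ 4 = (octThree ^ ((j + j) * a)) ^ 4 := congrArg (· ^ 4) hρg
        _ = (octThree ^ 4) ^ (2 * (j * a)) := by rw [← pow_mul, ← pow_mul]; congr 1; ring
        _ = 1 := by rw [octThree_pow_four, (even_two_mul _).neg_one_pow]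
    · exact ho
  have hσ4 : ρ σ ^ 4 = -1 := by
    rw [hρσ, ← pow_mul, mul_comm, pow_mul, octThree_pow_four, hodd.neg_one_pow]
  have hσ8 : orderOf (ρ σ) = 8 := by
    have := orderOf_eq_prime_pow (p := 2) (n := 2) (x := ρ σ)
      (by rw [show 2 ^ 2 = 4 from rfl, hσ4]; exact neg_one_ne_one_gl)
      (by rw [show 2 ^ (2 + 1) = 4 * 2 from rfl, pow_mul, hσ4, neg_one_sq])
    exact this
  have hσζ : σ ζ = ζ⁻¹ := by
    rw [hb ζ (le_sup_right (a := E) (IntermediateField.mem_adjoin_simple_self ℚ ζ))]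
    obtain ⟨j, rfl⟩ := hodd
    have h2 : g ^ 2 ∈ MulAction.stabilizer Γℚ ζ := by
      show (g ^ 2) ζ = ζ
      rw [pow_two, AlgEquiv.mul_apply, hgζ, map_inv₀, hgζ, inv_inv]
    rw [pow_succ', AlgEquiv.mul_apply, pow_mul,
      show ((g ^ 2) ^ j) ζ = ζ from pow_mem h2 j, hgζ]
  have hpM : ¬ p ∣ M := fun h => hpS.2 (Nat.mem_primeFactors.mpr ⟨hp, h, hM.ne'⟩)
  have hpm : (p : ZMod M) = -1 := by
    have h := Gal.isFrobeniusAt_rootOfUnity hp hA hσ hpM hζ.pow_eq_one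
    rw [hσζ] at h
    have h1 := inv_mul_cancel₀ (hζ.ne_zero hM.ne')
    rw [h, ← pow_succ] at h1
    have hd := (ZMod.natCast_eq_zero_iff (p + 1) M).mpr (hζ.dvd_of_pow_eq_one _ h1)
    rw [Nat.cast_add, Nat.cast_one] at hd
    exact eq_neg_of_add_eq_zero_left hd
  have hσK : σ ∉ K.fixingSubgroup := by
    intro h
    have hq := rho_mem_slThree_of_quadField hdet hK h
    have h12 := pow_four_of_mem_quat (cube_mem_quat hq)
    rw [← pow_mul, show 3 * 4 = 4 * 3 from rfl, pow_mul, hσ4] at h12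
    exact neg_one_ne_one_gl (by simpa [pow_succ] using h12)
  have hσ2 : σ ^ 2 ∈ K.fixingSubgroup := by
    rw [hK, map_pow]
    exact (by decide : ∀ u : (ZMod 3)ˣ, u ^ 2 = 1) _
  obtain ⟨v, hv, hpv, -⟩ := BianchiForm.exists_place (K := K) hp hA
  obtain ⟨q, f, hq, hqA, hf, hN⟩ := exists_prime_absNorm hv
  obtain rfl := Gal.liesOverPrime_unique hp hq hA hqA
  have hle := absNorm_le_of_isFrobeniusAt hv hσ2 (Nat.one_lt_pow two_ne_zero hp.one_lt)
    (isFrobeniusAt_pow hσ 2)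
  rw [hN, Nat.pow_le_pow_iff_right hp.one_lt] at hle
  have hf2 : f = 2 := by
    by_contra hne
    obtain rfl : f = 1 := by omega
    obtain ⟨τ, hτ, hτF⟩ := exists_isFrobeniusAt_absNorm hv
    rw [hN, pow_one] at hτF
    have h := hS₁ p hp hpS.1.2 A hA _ (Gal.inv_mul_mem_inertia hσ hτF)
    rw [map_mul, map_inv, inv_mul_eq_one] at h
    exact hσK (by rw [hK, ← hdet, h, hdet]; exact (hK τ).mp hτ)
  rw [hf2] at hN
  have hunr : ∀ B : ValuationSubring Qbar, LiesOverPlace B v →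
      ∀ τ ∈ B.inertiaSubgroupIn ℚ, τ ∈ K.fixingSubgroup → ρ τ = 1 := fun B hB τ hτ _ => by
    obtain ⟨q', f', hq', hqB, hf', hN'⟩ := exists_prime_absNorm hB
    obtain rfl : p = q' := (Nat.prime_dvd_prime_iff_eq hp hq').mp (hp.dvd_of_dvd_pow (n := f')
      (by rw [← hN', hN]; exact dvd_pow_self p two_ne_zero))
    exact hS₁ p hp hpS.1.2 B hqB τ hτ
  have hF : A.IsFrobeniusAt (σ ^ 2) (Ideal.absNorm v.asIdeal) :=
    hN.symm ▸ isFrobeniusAt_pow hσ 2
  have hsq : (ρ σ ^ 2) ^ 2 = -1 := by rw [← pow_mul]; exact hσ4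
  have hspan : v.asIdeal = Ideal.span {(p : 𝓞 K)} := by
    have hle' : Ideal.span {(p : 𝓞 K)} ≤ v.asIdeal := by
      rw [Ideal.span_le, Set.singleton_subset_iff]; exact hpv
    obtain ⟨J, hJ⟩ := Ideal.dvd_iff_le.mpr hle'
    have hNp : Ideal.absNorm (Ideal.span {(p : 𝓞 K)}) = p ^ 2 := by
      rw [Ideal.absNorm_span_singleton, show ((p : ℕ) : 𝓞 K) = algebraMap ℤ (𝓞 K) p by simp,
        Algebra.norm_algebraMap, RingOfIntegers.rank,
        finrank_quadField hdet hK hsurj, Int.natAbs_pow, Int.natAbs_natCast]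
    have hJ1 := congrArg Ideal.absNorm hJ
    rw [map_mul, hN, hNp] at hJ1
    rw [hJ, Ideal.absNorm_eq_one_iff.mp
      ((Nat.mul_eq_left (pow_ne_zero 2 hp.ne_zero)).mp hJ1.symm), Ideal.mul_top]
  refine ⟨p, v, A, σ, hp, hpS.1.1, hpm, hA, hσ, hσ8, hspan, hN, hv, hunr, hσ2, hF, ?_, ?_⟩
  · refine (split_of_frobenius hdet hcoe hK hL hsurj hunr hv hσ2 hF ?_).1
    rw [map_pow, ← pow_mul, show 2 * 4 = 4 * 2 from rfl, pow_mul, hσ4, neg_one_sq]
  · rw [quatTrace, if_neg, if_neg]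
    · intro h
      have e : ρ σ ^ 2 = -1 := Units.ext (by rw [h, Units.val_neg, Units.val_one])
      rw [e, neg_one_sq] at hsq
      exact neg_one_ne_one_gl hsq.symm
    · intro h
      rw [h, one_pow] at hsq
      exact neg_one_ne_one_gl hsq.symm

end Fermat.Agent.ResidualThree
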