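import Fermat.Prelude.Def_GaloisRep_ModThreeCyclotomic
import Fermat.Agent.Frey.Local
import Fermat.Agent.Mazur.Descent.Unramified
import Fermat.Agent.Switch.ThreeTorsion
import Fermat.Agent.Tate.Ramified

/-!
# Local facts at `3` for points of order three

A point of order three fixed by the inertia group at a place over `3` does not reduce to the
origin, and some inertia element at `3` moves the cube roots of unity.  These are the local inputs
at `3` for the mod 3 representation.
-/

noncomputable section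

namespace Fermat.Agent.ResidualThree

open WeierstrassCurve WeierstrassCurve.Affine WeierstrassCurve.Affine.Point Fermat.Agent.Frey
open scoped WeierstrassCurve.Affine

local notation "Qbar" => AlgebraicClosure ℚ
local notation "GQ" => AlgebraicClosure ℚ ≃ₐ[ℚ] AlgebraicClosure ℚ

variable {W : WeierstrassCurve ℤ} {A : ValuationSubring (AlgebraicClosure ℚ)}

/-- Three times the abscissa of a point of order three is integral at a place over `3`. -/
theorem three_mul_mem {x y : Qbar} {h : (barCurve W).Nonsingular x y}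
    (hA : A.LiesOverPrime 3)
    (h3 : 3 • (Point.some x y h : (barCurve W).Point) = 0) : (3 : Qbar) * x ∈ A := by
  have hq := Switch.quartic_of_three_torsion h h3
  set U := 12 * x + (barCurve W).b₂ with hU
  have hb : (barCurve W).b₂ = ((W.b₂ : ℤ) : Qbar) := by rw [barCurve_eq, map_b₂, eq_intCast]
  have hc4 : (barCurve W).c₄ = ((W.c₄ : ℤ) : Qbar) := by rw [barCurve_eq, map_c₄, eq_intCast]
  have hc6 : (barCurve W).c₆ = ((W.c₆ : ℤ) : Qbar) := by rw [barCurve_eq, map_c₆, eq_intCast]
  have hint : IsIntegral ℤ U := by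
    refine ⟨Polynomial.X ^ 4 + Polynomial.C (-6 * W.c₄) * Polynomial.X ^ 2
      + Polynomial.C (-8 * W.c₆) * Polynomial.X + Polynomial.C (-3 * W.c₄ ^ 2), ?_, ?_⟩
    · monicity!
    · rw [Switch.quartic] at hq
      simp only [Polynomial.eval₂_add, Polynomial.eval₂_mul, Polynomial.eval₂_X_pow,
        Polynomial.eval₂_C, Polynomial.eval₂_X]
      simp only [eq_intCast]
      push_cast
      rw [← hc4, ← hc6]
      linear_combination hq
  have h12 : (12 : Qbar) * x ∈ A := by
    have := sub_mem (Gal.mem_of_isIntegral (A := A) hint) (_root_.intCast_mem A W.b₂)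
    rwa [hU, hb, add_sub_cancel_right] at this
  have h4 : A.valuation (4 : Qbar) = 1 := by
    have hm : ((4 : ℤ) : Qbar) ∈ A := _root_.intCast_mem A 4
    have hnot : ((4 : ℤ) : Qbar) ∉ A.nonunits := fun hn => by
      have := (Gal.intCast_mem_nonunits_iff Nat.prime_three hA 4).1 hn
      norm_num at this
    have hle := (A.valuation_le_one_iff _).2 hm
    rw [ValuationSubring.mem_nonunits_iff, not_lt] at hnot
    exact_mod_cast le_antisymm hle hnot
  rw [← A.valuation_le_one_iff] at h12 ⊢
  rw [show (12 : Qbar) * x = 4 * (3 * x) by ring, map_mul, h4, one_mul] at h12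
  exact h12

/-- A point of order three fixed by inertia at `3` does not reduce to `O`. -/
theorem not_far_of_fixed (hA : A.LiesOverPrime 3) (x : Tors W 3) (hx0 : x ≠ 0)
    (hfix : ∀ σ ∈ A.inertiaSubgroupIn ℚ, σ • x = x) : ¬ Far (barCurve W) A x.1 := by
  obtain ⟨P, hP⟩ := x
  cases P with
  | zero => exact absurd rfl hx0
  | some x y h =>
    intro hfar
    change x ∉ A at hfar
    have h3 := three_mul_mem hA (tors_nsmul (W := W) (n := 3) ⟨_, hP⟩)
    have hxy : ∀ σ ∈ A.inertiaSubgroupIn ℚ, σ x = x ∧ σ y = y := fun σ hσ => by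
      have e := congrArg Subtype.val (hfix σ hσ)
      rw [coe_smul_tors] at e
      obtain ⟨h', e'⟩ := map_spec (W := W) σ x y h
      rw [e'] at e
      exact Point.some.inj e
    set v := A.valuation with hv
    have hxv : 1 < v x := not_le.1 fun hle => hfar ((A.valuation_le_one_iff x).1 hle)
    have hx : x ≠ 0 := fun e => hfar (e ▸ A.zero_mem)
    set u := v (3 : Qbar) with hu
    have hu1 : u < 1 := by
      have : A.valuation ((3 : ℕ) : Qbar) < 1 := hA
      simpa using this
    have hu0 : 0 < u := zero_lt_iff.2 (v.ne_zero_iff.2 (by norm_num))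
    -- the value of `x` is the inverse of that of `3`
    obtain ⟨j, hj⟩ := Mazur.exists_unit_mul_zpow Nat.prime_three hA hx fun σ hσ => (hxy σ hσ).1
    have hjx : v x = u ^ j := by
      have := hj
      rw [Mazur.IsUnitAt, map_div₀, map_zpow₀, div_eq_one_iff_eq
        (zpow_ne_zero _ (v.ne_zero_iff.2 (by norm_num)))] at this
      simpa using this
    have hjneg : j = -1 := by
      have h1 : j < 0 := by
        by_contra hh
        lift j to ℕ using not_lt.1 hh
        rw [hjx, zpow_natCast] at hxv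
        exact hxv.not_ge (pow_le_one₀ zero_le hu1.le)
      have h2 : -1 ≤ j := by
        by_contra hh
        have h3' := (A.valuation_le_one_iff _).2 h3
        rw [← hv, map_mul, ← hu, hjx, ← zpow_one_add₀ hu0.ne'] at h3'
        exact h3'.not_gt (one_lt_zpow_of_neg₀ hu0 hu1 (by omega))
      omega
    rw [hjneg, zpow_neg_one] at hjx
    set a := u⁻¹ with ha
    have ha1 : 1 < a := (one_lt_inv₀ hu0).2 hu1
    have hle : ∀ n : ℤ, v (n : Qbar) ≤ 1 := fun n =>
      (A.valuation_le_one_iff _).2 (_root_.intCast_mem A n)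
    have heq := ((barCurve W).equation_iff x y).1 h.1
    have e1 : (barCurve W).a₁ = (W.a₁ : Qbar) := by rw [barCurve_eq, map_a₁, eq_intCast]
    have e2 : (barCurve W).a₂ = (W.a₂ : Qbar) := by rw [barCurve_eq, map_a₂, eq_intCast]
    have e3 : (barCurve W).a₃ = (W.a₃ : Qbar) := by rw [barCurve_eq, map_a₃, eq_intCast]
    have e4 : (barCurve W).a₄ = (W.a₄ : Qbar) := by rw [barCurve_eq, map_a₄, eq_intCast]
    have e6 : (barCurve W).a₆ = (W.a₆ : Qbar) := by rw [barCurve_eq, map_a₆, eq_intCast]
    rw [e1, e2, e3, e4, e6] at heq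
    -- right-hand side
    have hR : v (x ^ 3 + W.a₂ * x ^ 2 + W.a₄ * x + W.a₆) = a ^ 3 := by
      have hlt : v (W.a₂ * x ^ 2 + W.a₄ * x + W.a₆ : Qbar) < v (x ^ 3) := by
        rw [map_pow, hjx]
        have hlast : (a : A.ValueGroup) ^ 2 < a ^ 3 := pow_lt_pow_right₀ ha1 (by norm_num)
        refine lt_of_le_of_lt (v.map_add_le (v.map_add_le ?_ ?_) ?_) hlast
        · rw [map_mul, map_pow, hjx]; exact mul_le_of_le_one_left' (hle _)
        · rw [map_mul, hjx]
          exact (mul_le_of_le_one_left' (hle _)).trans (le_self_pow₀ ha1.le (by norm_num))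
        · exact (hle _).trans (one_le_pow₀ ha1.le)
      rw [show x ^ 3 + W.a₂ * x ^ 2 + W.a₄ * x + (W.a₆ : Qbar)
          = x ^ 3 + (W.a₂ * x ^ 2 + W.a₄ * x + W.a₆) by ring,
        v.map_add_eq_of_lt_left hlt, map_pow, hjx]
    rw [← heq] at hR
    -- left-hand side
    have hy : y ≠ 0 := fun e => by
      rw [e] at hR
      simp only [ne_eq, OfNat.ofNat_ne_zero, not_false_eq_true, zero_pow, mul_zero, add_zero,
        _root_.map_zero] at hR
      exact (pow_pos (zero_lt_one.trans ha1) 3).ne hR
    obtain ⟨i, hi⟩ := Mazur.exists_unit_mul_zpow Nat.prime_three hA hy fun σ hσ => (hxy σ hσ).2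
    have hiy : v y = a ^ (-i) := by
      have := hi
      rw [Mazur.IsUnitAt, map_div₀, map_zpow₀, div_eq_one_iff_eq
        (zpow_ne_zero _ (v.ne_zero_iff.2 (by norm_num)))] at this
      rw [ha, inv_zpow', neg_neg]
      simpa using this
    rcases le_or_gt (v y) a with hle' | hgt
    · have h2 : v (y ^ 2 + W.a₁ * x * y + W.a₃ * y : Qbar) ≤ a ^ 2 := by
        refine v.map_add_le (v.map_add_le ?_ ?_) ?_
        · rw [map_pow]; exact pow_le_pow_left₀ zero_le hle' 2
        · rw [map_mul, map_mul, hjx, pow_two, mul_assoc]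
          exact (mul_le_of_le_one_left' (hle _)).trans (mul_le_mul_right hle' _)
        · rw [map_mul]
          exact (mul_le_of_le_one_left' (hle _)).trans
            (hle'.trans (le_self_pow₀ ha1.le (by norm_num)))
      rw [hR] at h2
      exact h2.not_gt (pow_lt_pow_right₀ ha1 (by norm_num))
    · have hge : a ^ 2 ≤ v y := by
        rw [hiy] at hgt ⊢
        have h1 : (1 : ℤ) < -i := by
          rw [← zpow_lt_zpow_iff_right₀ ha1, zpow_one]
          exact hgt
        rw [← zpow_natCast, zpow_le_zpow_iff_right₀ ha1]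
        omega
      have hlt : v (W.a₁ * x * y + W.a₃ * y : Qbar) < v (y ^ 2) := by
        rw [map_pow, pow_two]
        have hypos : 0 < v y := (zero_lt_one.trans ha1).trans hgt
        refine lt_of_le_of_lt (v.map_add_le ?_ ?_) (mul_lt_mul_of_pos_right hgt hypos)
        · rw [map_mul, map_mul, hjx, mul_assoc]; exact mul_le_of_le_one_left' (hle _)
        · rw [map_mul]
          exact (mul_le_of_le_one_left' (hle _)).trans
            (le_mul_of_one_le_left' ha1.le)
      rw [add_assoc, v.map_add_eq_of_lt_left hlt, map_pow] at hR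
      have h4 : a ^ 4 ≤ v y ^ 2 := by
        rw [show 4 = 2 * 2 from rfl, pow_mul]
        exact pow_le_pow_left₀ zero_le hge 2
      rw [hR] at h4
      exact h4.not_gt (pow_lt_pow_right₀ ha1 (by norm_num))

/-- Some inertia element at `3` is nontrivial on cube roots of unity. -/
theorem exists_inertia_cyclotomic (hA : A.LiesOverPrime 3) :
    ∃ σ ∈ A.inertiaSubgroupIn ℚ, ((modThreeCyclotomicChar σ : (ZMod 3)ˣ) : ZMod 3) = -1 := by
  obtain ⟨r, hr⟩ := IsAlgClosed.exists_pow_nat_eq (3 : Qbar) two_pos
  obtain ⟨i, hi⟩ := IsAlgClosed.exists_pow_nat_eq (-1 : Qbar) two_pos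
  obtain ⟨σ, hσ, hmove⟩ := Tate.exists_inertia_root_moved Nat.prime_three hA Nat.prime_two
    (by norm_num) (π := r) (by simpa using hr)
  refine ⟨σ, hσ, ?_⟩
  have hi4 : i ^ 4 = 1 := by rw [show 4 = 2 * 2 from rfl, pow_mul, hi]; norm_num
  have hσi : σ i = i := Gal.inertia_rootOfUnity Nat.prime_three hA hσ (by norm_num : ¬ 3 ∣ 4) hi4
  set ζ := (-1 + i * r) / 2 with hζ
  have hζ3 : ζ ^ 3 = 1 := by
    rw [hζ]; field_simp
    linear_combination (-3 * r ^ 2 + i * r ^ 3) * hi + (3 - i * r) * hr
  have hζ0 : ζ ≠ 0 := fun e => by simp [e] at hζ3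
  have hne : σ ζ ≠ ζ := by
    rw [hζ, map_div₀, map_add, map_neg, map_one, map_mul, hσi, map_ofNat]
    intro e
    rw [div_left_inj' two_ne_zero, add_right_inj] at e
    have hi0 : i ≠ 0 := fun e' => by simp [e'] at hi4
    exact hmove (mul_left_cancel₀ hi0 e)
  have ht : Units.mk0 ζ hζ0 ∈ rootsOfUnity 3 Qbar := by
    rw [mem_rootsOfUnity]; exact Units.ext (by simpa using hζ3)
  rcases (by decide : ∀ u : (ZMod 3)ˣ, (u : ZMod 3) = 1 ∨ (u : ZMod 3) = -1)
    (modThreeCyclotomicChar σ) with e | e
  · exfalso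
    rw [modThreeCyclotomicChar_apply] at e
    have hspec := modularCyclotomicCharacter.spec Qbar
      (IsAlgClosed.card_rootsOfUnity_eq Qbar 3) (σ : Qbar ≃+* Qbar) ht
    rw [e] at hspec
    exact hne (hspec.trans (by simp [ZMod.val_one]))
  · exact e

end Fermat.Agent.ResidualThree
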