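import Fermat.Agent.ResidualThree.Galois.Fields

/-!
# Group lemmas for the local behaviour of `ρ` in the cubic extension

Facts about `GL₂(𝔽₃)` used to read off how places decompose: elements of determinant `-1`, the
normalisers of the cyclic groups of order four, the quotient `SL₂(𝔽₃)/Q₈` of order three, and the
fact that the commutators generate `SL₂(𝔽₃)`.
-/

noncomputable section

namespace Fermat.Agent.ResidualThree

local notation "G48" => GL (Fin 2) (ZMod 3)
local notation "M2" => Matrix (Fin 2) (Fin 2) (ZMod 3)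

/-- An element of `3`-power order is killed by `3`. -/
theorem pow_three_eq_one_of_pow_pow {h : G48} {N : ℕ} (hN : h ^ 3 ^ N = 1) : h ^ 3 = 1 := by
  have h48 : h ^ 48 = 1 := by rw [← card_gl_three]; exact pow_card_eq_one'
  have hco : Nat.Coprime (3 ^ N) 16 := Nat.Coprime.pow_left N (by norm_num)
  have hd : Nat.gcd (3 ^ N) 48 ∣ 3 := by
    rw [show (48 : ℕ) = 16 * 3 from rfl, Nat.Coprime.gcd_mul_left_cancel_right 3 hco.symm]
    exact Nat.gcd_dvd_right _ _
  obtain ⟨c, hc⟩ := hd
  rw [show h ^ 3 = h ^ (Nat.gcd (3 ^ N) 48 * c) from congrArg (h ^ ·) hc, pow_mul,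
    pow_gcd_eq_one.mpr ⟨hN, h48⟩, one_pow]

/-- An element of determinant `-1` squares to one or has fourth power `-1`. -/
theorem sq_eq_one_or_pow_four {t : G48} (ht : (t : M2).det = -1) : t ^ 2 = 1 ∨ t ^ 4 = -1 := by
  have hch := sq_eq_of_det_neg_one ht
  rcases (by decide : ∀ x : ZMod 3, x = 0 ∨ x * x = 1) (t : M2).trace with h | h
  · left
    refine Units.ext ?_
    rw [pow_two, Units.val_mul, hch, h, zero_smul, zero_add, Units.val_one]
  · right
    refine Units.ext ?_
    rw [Units.val_pow_eq_pow_val, show 4 = 2 + 2 from rfl, pow_add, pow_two, hch, Units.val_neg,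
      Units.val_one]
    generalize hx : (t : M2).trace = x at h hch
    rw [add_mul, mul_add, mul_one, one_mul, smul_mul_smul_comm, h, one_smul, hch]
    have e : x • (t : M2) + 1 + x • (t : M2) + (x • (t : M2) + 1) =
        (3 : ZMod 3) • (x • (t : M2)) + 2 := by
      rw [show (3 : ZMod 3) = 1 + 1 + 1 by decide, add_smul, add_smul, one_smul,
        show (2 : M2) = 1 + 1 from one_add_one_eq_two.symm]
      abel
    rw [e, show (3 : ZMod 3) = 0 from rfl, zero_smul, zero_add]
    decide

/-- The entrywise form of `eq_one_of_commute`. -/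
theorem commute_nilp_aux (p q r x y z : ZMod 3) (h1 : x * x + y * z = 0) (h2 : q * z = r * y)
    (h3 : p * y = q * x) (h4 : r * x = p * z) (hd : p * p + q * r ≠ 0) :
    x = 0 ∧ y = 0 ∧ z = 0 := by
  revert p q r x y z
  decide

/-- An element of order four of `SL₂(𝔽₃)` is centralised by no element of order three. -/
theorem eq_one_of_commute {M u : G48} (hd : M ∈ slThree) (hM : M * M = -1) (hu : u ^ 3 = 1)
    (hc : (u : M2) * (M : M2) = (M : M2) * (u : M2)) : u = 1 := by
  have hMd : (M : M2).det = 1 := hd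
  have htM : (M : M2).trace = 0 := by
    have h := sq_eq_of_det_one hMd
    rw [← Units.val_mul, hM, Units.val_neg, Units.val_one] at h
    have h' : (M : M2).trace • (M : M2) = 0 := by
      rw [← sub_eq_zero.mpr h.symm]; abel
    refine (smul_eq_zero.mp h').resolve_right fun e => ?_
    rw [e, Matrix.det_zero] at hMd
    exact zero_ne_one hMd
  by_contra hne
  have husl := of_cube_eq_one hu
  have htu : (u : M2).trace = -1 := trace_of_cube_eq_one hu hne
  obtain ⟨eM, dM⟩ := eq_of_trace_det htM hMd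
  have hud : (u : M2).det = 1 := husl
  rw [Matrix.det_fin_two] at hud
  rw [Matrix.trace_fin_two] at htu
  have h00 := congrFun (congrFun hc 0) 0
  have h01 := congrFun (congrFun hc 0) 1
  have h10 := congrFun (congrFun hc 1) 0
  have e11 : (M : M2) 1 1 = -(M : M2) 0 0 := by
    rw [Matrix.trace_fin_two] at htM; linear_combination htM
  simp only [Matrix.mul_apply, Fin.sum_univ_two, e11] at h00 h01 h10
  generalize ea : (u : M2) 0 0 = a at *
  generalize eb : (u : M2) 0 1 = b at *
  generalize ec : (u : M2) 1 0 = c at *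
  generalize ed : (u : M2) 1 1 = d at *
  generalize (M : M2) 0 0 = p at *
  generalize (M : M2) 0 1 = q at *
  generalize (M : M2) 1 0 = r at *
  have hb : d = -1 - a := by linear_combination htu
  subst hb
  have hthree : (3 : ZMod 3) = 0 := rfl
  obtain ⟨hx, hy, hz⟩ := commute_nilp_aux p q r (a - 1) b c
    (by linear_combination -hud - a * hthree) (by linear_combination -h00)
    (by linear_combination h01 + (p * b - q * a) * hthree)
    (by linear_combination h10 + (r * a - p * c) * hthree) (fun e => by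
      apply zero_ne_one (α := ZMod 3)
      linear_combination dM + e)
  refine hne (Units.ext ?_)
  rw [Units.val_one]
  ext i j
  fin_cases i <;> fin_cases j <;> (simp [ea, eb, ec, ed, hy, hz, sub_eq_zero.mp hx] <;> decide)

/-- An element of order dividing three normalising a cyclic group of order four is trivial. -/
theorem eq_one_of_conj_pow {M u : G48} (hd : M ∈ slThree) (hM : M * M = -1) (hu : u ^ 3 = 1)
    {i : ℕ} (h : u * M * u⁻¹ = M ^ i) : u = 1 := by
  have hM2 : M ^ 2 = -1 := by rw [pow_two, hM]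
  have hscalar : ∀ ε : G48, ε ∈ Subgroup.center G48 → u * M * u⁻¹ = ε → ε ^ 2 = 1 → False := by
    intro ε hε he hε2
    have e2 : M = ε := by
      have h' : M = u⁻¹ * ε * u := by rw [← he]; group
      rw [h', Subgroup.mem_center_iff.mp hε, mul_assoc, inv_mul_cancel, mul_one]
    rw [e2, hε2] at hM2
    exact neg_one_ne_one_gl hM2.symm
  have hcen : ∀ k : ℕ, ((-1 : G48) ^ k) ∈ Subgroup.center G48 := fun k => pow_mem
    (Subgroup.mem_center_iff.mpr fun g => by rw [mul_neg, mul_one, neg_mul, one_mul]) k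
  rcases Nat.even_or_odd i with ⟨j, rfl⟩ | ⟨j, rfl⟩
  · rw [← two_mul, pow_mul, hM2] at h
    exact (hscalar _ (hcen j) h (by rw [← pow_mul, Even.neg_one_pow (even_two.mul_left j)])).elim
  · rw [pow_succ, pow_mul, hM2] at h
    refine eq_one_of_commute hd hM hu ?_
    have hc : u * M * u⁻¹ = M := by
      rcases Nat.even_or_odd j with hj | hj
      · rw [h, hj.neg_one_pow, one_mul]
      · rw [hj.neg_one_pow, neg_one_mul] at h
        exfalso
        have h3 : (u ^ 3) * M * (u ^ 3)⁻¹ = -M := by
          have e : (u ^ 3) * M * (u ^ 3)⁻¹ = u * (u * (u * M * u⁻¹) * u⁻¹) * u⁻¹ := by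
            simp [pow_succ, mul_assoc]
          rw [e, h]
          simp only [mul_neg, neg_mul, h, neg_neg]
        rw [hu, one_mul, inv_one, mul_one] at h3
        refine neg_one_ne_one_gl ?_
        have e : M * M⁻¹ = -M * M⁻¹ := by rw [← h3]
        rw [mul_inv_cancel, neg_mul, mul_inv_cancel] at e
        exact e.symm
    have hc' : u * M = M * u := by rw [← mul_inv_eq_iff_eq_mul]; exact hc
    rw [← Units.val_mul, hc', Units.val_mul]

/-! ### `SL₂(𝔽₃)` modulo the quaternion subgroup -/

/-- The image of `unipThree` in `SL₂(𝔽₃)/Q₈` has order three. -/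
theorem unipThree_pow_mem_iff (k : ℕ) : unipThree ^ k ∈ quatSubgroup ↔ 3 ∣ k := by
  constructor
  · intro h
    refine Nat.dvd_of_mod_eq_zero ?_
    rw [← Nat.div_add_mod k 3, pow_add, pow_mul, unipThree_cube, one_pow, one_mul] at h
    have hlt : k % 3 < 3 := Nat.mod_lt _ (by norm_num)
    interval_cases hk : k % 3
    · rfl
    · exact absurd (by rwa [pow_one] at h) unipThree_notMem
    · refine absurd ?_ unipThree_notMem
      have h2 := mul_mem h h
      rwa [← pow_add, show 2 + 2 = 3 + 1 from rfl, pow_succ, unipThree_cube, one_mul] at h2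
  · rintro ⟨j, rfl⟩
    rw [pow_mul, unipThree_cube, one_pow]
    exact one_mem _

/-- An element outside `Q₈` generates `SL₂(𝔽₃)` modulo `Q₈`. -/
theorem exists_mul_pow_mem_quat {a b : G48} (ha : a ∈ slThree) (hb : b ∈ slThree)
    (hb' : b ∉ quatSubgroup) : ∃ i : ℕ, a * b ^ i ∈ quatSubgroup := by
  obtain ⟨k, hk⟩ := exists_pow_mul_mem_quat (det_eq_one_iff_mem_slThree.mpr ha)
  obtain ⟨j, hj⟩ := exists_pow_mul_mem_quat (det_eq_one_iff_mem_slThree.mpr hb)
  refine ⟨2 * k * j, (QuotientGroup.eq_one_iff _).mp ?_⟩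
  have hk1 := (QuotientGroup.eq_one_iff _).mpr hk
  have hj1 := (QuotientGroup.eq_one_iff _).mpr hj
  rw [QuotientGroup.mk_mul, QuotientGroup.mk_pow, mul_eq_one_iff_eq_inv'] at hk1 hj1
  rw [QuotientGroup.mk_mul, QuotientGroup.mk_pow, hk1, hj1, inv_pow, ← pow_mul, ← mul_inv_rev,
    ← pow_add, inv_eq_one, ← QuotientGroup.mk_pow, QuotientGroup.eq_one_iff,
    unipThree_pow_mem_iff]
  have hj3 : ¬ 3 ∣ j := fun h3 => hb' (by
    have := mul_mem (inv_mem ((unipThree_pow_mem_iff j).mpr h3)) hj
    rwa [inv_mul_cancel_left] at this)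
  have hj2 : (3 : ℕ) ∣ 2 * (j * j) + 1 := by
    have h : j % 3 = 1 ∨ j % 3 = 2 := by omega
    rw [Nat.dvd_iff_mod_eq_zero, Nat.add_mod, Nat.mul_mod, Nat.mul_mod j j]
    rcases h with h | h <;> rw [h]
  obtain ⟨c, hc⟩ := hj2
  exact ⟨k * c, by rw [← mul_left_comm k 3 c, ← hc]; ring⟩

/-- Upper transvections. -/
def upThree (i : ZMod 3) : G48 :=
  ⟨!![1, i; 0, 1], !![1, -i; 0, 1], by revert i; decide, by revert i; decide⟩

/-- Lower transvections. -/
def loThree (i : ZMod 3) : G48 :=
  ⟨!![1, 0; i, 1], !![1, 0; -i, 1], by revert i; decide, by revert i; decide⟩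

/-- `diag(-1, 1)`. -/
def negDiagThree : G48 := ⟨!![-1, 0; 0, 1], !![-1, 0; 0, 1], by decide, by decide⟩

theorem upThree_eq_commutator (i : ZMod 3) :
    upThree i = negDiagThree * upThree i * negDiagThree⁻¹ * (upThree i)⁻¹ := by
  refine Units.ext ?_
  simp only [Units.val_mul]
  show (!![1, i; 0, 1] : M2) =
    !![-1, 0; 0, 1] * !![1, i; 0, 1] * !![-1, 0; 0, 1] * !![1, -i; 0, 1]
  revert i; decide

theorem loThree_eq_commutator (i : ZMod 3) :
    loThree i = negDiagThree * loThree i * negDiagThree⁻¹ * (loThree i)⁻¹ := by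
  refine Units.ext ?_
  simp only [Units.val_mul]
  show (!![1, 0; i, 1] : M2) =
    !![-1, 0; 0, 1] * !![1, 0; i, 1] * !![-1, 0; 0, 1] * !![1, 0; -i, 1]
  revert i; decide

/-- A matrix of determinant one with `c ≠ 0` is a product of three transvections. -/
theorem sl_factor_aux (a b c d : ZMod 3) (h : a * d - b * c = 1) (hc : c ≠ 0) :
    (!![a, b; c, d] : M2) =
      !![1, (a - 1) * c; 0, 1] * !![1, 0; c, 1] * !![1, (d - 1) * c; 0, 1] := by
  revert a b c d
  decide

/-- A subgroup containing the commutators contains `SL₂(𝔽₃)`. -/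
theorem mem_of_commutator_mem (N : Subgroup G48) (hN : ∀ x y : G48, x * y * x⁻¹ * y⁻¹ ∈ N)
    {g : G48} (hg : g ∈ slThree) : g ∈ N := by
  have hu : ∀ i, upThree i ∈ N := fun i => by rw [upThree_eq_commutator]; exact hN _ _
  have hl : ∀ i, loThree i ∈ N := fun i => by rw [loThree_eq_commutator]; exact hN _ _
  have key : ∀ h : G48, h ∈ slThree → (h : M2) 1 0 ≠ 0 → h ∈ N := by
    intro h hh hc
    have hdet : (h : M2).det = 1 := hh
    rw [Matrix.det_fin_two] at hdet
    have e := sl_factor_aux _ _ _ _ hdet hc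
    rw [← Matrix.eta_fin_two (h : M2)] at e
    have : h = upThree (((h : M2) 0 0 - 1) * (h : M2) 1 0) * loThree ((h : M2) 1 0) *
        upThree (((h : M2) 1 1 - 1) * (h : M2) 1 0) := Units.ext e
    rw [this]
    exact mul_mem (mul_mem (hu _) (hl _)) (hu _)
  by_cases hc : (g : M2) 1 0 = 0
  · have hl1 : loThree 1 ∈ slThree := show (!![1, 0; 1, 1] : M2).det = 1 by decide
    refine (Subgroup.mul_mem_cancel_left N (hl 1)).mp (key _ (mul_mem hl1 hg) ?_)
    have hdet : (g : M2).det = 1 := hg
    rw [Matrix.det_fin_two, hc, mul_zero, sub_zero] at hdet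
    show ((!![1, 0; 1, 1] : M2) * (g : M2)) 1 0 ≠ 0
    rw [Matrix.mul_apply, Fin.sum_univ_two, hc, mul_zero, add_zero]
    intro e
    have e' : (g : M2) 0 0 = 0 := by simpa using e
    rw [e', zero_mul] at hdet
    exact zero_ne_one hdet
  · exact key g hg hc

/-- An element of order eight. -/
def octThree : G48 := ⟨!![1, 1; 1, 0], !![0, 1; 1, -1], by decide, by decide⟩

theorem octThree_det : (octThree : M2).det = -1 := by decide

theorem octThree_pow_four : octThree ^ 4 = -1 :=
  Units.ext (by rw [Units.val_pow_eq_pow_val]; decide)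

end Fermat.Agent.ResidualThree
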