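import Fermat.Agent.Mazur.Tame.Inertia
import Fermat.Agent.ResidualThree.BianchiForm.Places
import Fermat.Agent.ResidualThree.Galois.FarFixed
import Fermat.Agent.ResidualThree.Galois.GroupSplit

/-!
# The restriction of `ρ` to `ℚ(√-3)` at the places over `3`

For `ρ : Gal(ℚ̄/ℚ) → GL₂(𝔽₃)` with cyclotomic determinant, either inertia at `3` over `ℚ(√-3)` acts
through elements killed by `3`, or the whole decomposition group there lands in the quaternion
subgroup.  This decides how the places over `3` behave in the cubic extension.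
-/

noncomputable section

open scoped Pointwise

namespace Fermat.Agent.ResidualThree

local notation "Qbar" => AlgebraicClosure ℚ
local notation "Γℚ" => (AlgebraicClosure ℚ ≃ₐ[ℚ] AlgebraicClosure ℚ)
local notation "G48" => GL (Fin 2) (ZMod 3)
local notation "M2" => Matrix (Fin 2) (Fin 2) (ZMod 3)

variable {ρ : Γℚ →* G48}

/-- The image of inertia at `3` is a cyclic group times elements killed by `3`. -/
theorem exists_tame_generator (hρ : Continuous ρ) {A : ValuationSubring Qbar}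
    (hA : A.LiesOverPrime 3) :
    ∃ g ∈ A.inertiaSubgroupIn ℚ, ∀ σ ∈ A.inertiaSubgroupIn ℚ,
      ∃ k : ℕ, ((ρ g ^ k)⁻¹ * ρ σ) ^ 3 = 1 := by
  obtain ⟨L, hL, hfac⟩ := BianchiForm.factors_of_continuous ρ hρ
  let E := IntermediateField.normalClosure ℚ L Qbar
  have : Normal ℚ E := normalClosure.normal ℚ L Qbar
  obtain ⟨g, hg, hgen, -⟩ := Mazur.Tame.exists_generator Nat.prime_three hA E
  refine ⟨g, hg, fun σ hσ => ?_⟩
  obtain ⟨k, N, hN⟩ := hgen σ hσ
  refine ⟨k, pow_three_eq_one_of_pow_pow (N := N) ?_⟩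
  rw [← map_pow, ← map_inv, ← map_mul, ← map_pow]
  exact hfac _ fun x hx => hN x (L.le_normalClosure hx)

variable (hdet : ∀ σ : Γℚ, Matrix.GeneralLinearGroup.det (ρ σ) =
    WeierstrassCurve.modThreeCyclotomicChar σ)

include hdet

theorem rho_mem_slThree {σ : Γℚ} (h : WeierstrassCurve.modThreeCyclotomicChar σ = 1) :
    ρ σ ∈ slThree :=
  det_eq_one_iff_mem_slThree.mp (by rw [hdet, h])

/-- Inertia at `3` killed by `3` over `ℚ(√-3)`, or decomposition groups killed by `4`, at one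
place. -/
theorem rho_dichotomy_at (hρ : Continuous ρ) {A : ValuationSubring Qbar}
    (hA : A.LiesOverPrime 3) :
    (∀ σ ∈ A.inertiaSubgroupIn ℚ, WeierstrassCurve.modThreeCyclotomicChar σ = 1 → ρ σ ^ 3 = 1) ∨
    (∀ σ ∈ A.decompositionSubgroup ℚ, WeierstrassCurve.modThreeCyclotomicChar σ = 1 →
      ρ σ ^ 4 = 1) := by
  by_cases hall : ∀ σ ∈ A.inertiaSubgroupIn ℚ,
      WeierstrassCurve.modThreeCyclotomicChar σ = 1 → ρ σ ^ 3 = 1
  · exact Or.inl hall
  push Not at hall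
  obtain ⟨s, hs, hsχ, hs3⟩ := hall
  obtain ⟨g, hg, hgen⟩ := exists_tame_generator hρ hA
  have hdetU : ∀ σ : Γℚ, ((ρ σ : G48) : M2).det =
      ((WeierstrassCurve.modThreeCyclotomicChar σ : (ZMod 3)ˣ) : ZMod 3) := fun σ => by
    rw [← Matrix.GeneralLinearGroup.val_det_apply, hdet]
  set t := ρ g with ht
  have hdetk : ∀ σ ∈ A.inertiaSubgroupIn ℚ, ∀ k : ℕ, ((t ^ k)⁻¹ * ρ σ) ^ 3 = 1 →
      ((ρ σ : G48) : M2).det = ((t : M2).det) ^ k := by
    intro σ _ k hk
    have h1 : (((t ^ k)⁻¹ * ρ σ : G48) : M2).det = 1 := of_cube_eq_one hk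
    have e : ρ σ = t ^ k * ((t ^ k)⁻¹ * ρ σ) := (mul_inv_cancel_left _ _).symm
    rw [e, Units.val_mul, Matrix.det_mul, h1, mul_one, Units.val_pow_eq_pow_val, Matrix.det_pow]
  have htd : (t : M2).det = -1 := by
    obtain ⟨τ, hτ, hτd⟩ := exists_inertia_cyclotomic hA
    obtain ⟨k, hk⟩ := hgen τ hτ
    have h := hdetk τ hτ k hk
    rw [hdetU, hτd] at h
    rcases (by decide : ∀ x : ZMod 3, x = 0 ∨ x = 1 ∨ x = -1) (t : M2).det with e | e | e
    · rcases Nat.eq_zero_or_pos k with rfl | hpos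
      · rw [pow_zero] at h; exact absurd h (by decide)
      · rw [e, zero_pow hpos.ne'] at h; exact absurd h (by decide)
    · rw [e, one_pow] at h; exact absurd h (by decide)
    · exact e
  have heven : ∀ σ ∈ A.inertiaSubgroupIn ℚ, ρ σ ∈ slThree → ∀ k : ℕ,
      ((t ^ k)⁻¹ * ρ σ) ^ 3 = 1 → Even k := by
    intro σ hσ hsl k hk
    have h := hdetk σ hσ k hk
    rw [htd, show ((ρ σ : G48) : M2).det = 1 from hsl] at h
    rcases Nat.even_or_odd k with he | ho
    · exact he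
    · rw [ho.neg_one_pow] at h; exact absurd h (by decide)
  obtain ⟨k, hk⟩ := hgen s hs
  obtain ⟨j, rfl⟩ := heven s hs (rho_mem_slThree hdet hsχ) k hk
  rcases sq_eq_one_or_pow_four htd with h2 | h4
  · refine absurd ?_ hs3
    rwa [← two_mul, pow_mul, h2, one_pow, inv_one, one_mul] at hk
  have hM : t ^ 2 * t ^ 2 = -1 := by rw [← pow_add]; exact h4
  have hMd : t ^ 2 ∈ slThree := by
    show ((t ^ 2 : G48) : M2).det = 1
    rw [Units.val_pow_eq_pow_val, Matrix.det_pow, htd, neg_one_sq]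
  have hMq : t ^ 2 ∈ quatSubgroup := mem_quat_of_pow_four hMd (pow_four_of_sq_neg_one hM)
  refine Or.inr fun d hd hdχ => ?_
  have hu3 : (ρ d ^ 4) ^ 3 = 1 := by
    rw [← pow_mul, show 4 * 3 = 3 * 4 from rfl, pow_mul]
    exact pow_four_of_mem_quat (cube_mem_quat (rho_mem_slThree hdet hdχ))
  have hI : d ^ 4 * g ^ 2 * (d ^ 4)⁻¹ ∈ A.inertiaSubgroupIn ℚ := by
    have h := Gal.conj_mem_inertia (pow_mem hg 2) (d ^ 4)
    rwa [MulAction.mem_stabilizer_iff.mp (pow_mem hd 4)] at h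
  obtain ⟨m, hm⟩ := hgen _ hI
  have hq : ρ (d ^ 4 * g ^ 2 * (d ^ 4)⁻¹) ∈ quatSubgroup := by
    rw [map_mul, map_mul, map_inv, map_pow ρ g]
    exact quatSubgroup_normal.conj_mem _ hMq _
  obtain ⟨i, rfl⟩ := heven _ hI (quatSubgroup_le_slThree hq) m hm
  have hti : (t ^ (i + i))⁻¹ ∈ quatSubgroup := by
    rw [← two_mul, pow_mul]; exact inv_mem (pow_mem hMq i)
  have h1 := eq_one_of_cube_of_quat hm (mul_mem hti hq)
  rw [inv_mul_eq_one, ← two_mul, pow_mul, map_mul, map_mul, map_inv, map_pow, map_pow] at h1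
  exact eq_one_of_conj_pow hMd hM hu3 h1.symm

/-- The dichotomy at all places over `3`. -/
theorem rho_dichotomy_three (hρ : Continuous ρ) :
    (∀ A : ValuationSubring Qbar, A.LiesOverPrime 3 → ∀ σ ∈ A.inertiaSubgroupIn ℚ,
      WeierstrassCurve.modThreeCyclotomicChar σ = 1 → ρ σ ^ 3 = 1) ∨
    (∀ A : ValuationSubring Qbar, A.LiesOverPrime 3 → ∀ σ ∈ A.decompositionSubgroup ℚ,
      WeierstrassCurve.modThreeCyclotomicChar σ = 1 → ρ σ ^ 4 = 1) := by
  obtain ⟨A₀, hA₀⟩ := Gal.exists_liesOverPrime Nat.prime_three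
  have hχ : ∀ (τ σ : Γℚ), WeierstrassCurve.modThreeCyclotomicChar σ = 1 →
      WeierstrassCurve.modThreeCyclotomicChar (τ⁻¹ * σ * τ) = 1 := fun τ σ h => by
    rw [map_mul, map_mul, h, map_inv, mul_one, inv_mul_cancel]
  have hρc : ∀ (τ σ : Γℚ) (n : ℕ), ρ (τ⁻¹ * σ * τ) ^ n = 1 → ρ σ ^ n = 1 := fun τ σ n h => by
    rw [map_mul, map_mul, map_inv] at h
    have e : ρ σ ^ n = ρ τ * ((ρ τ)⁻¹ * ρ σ * ρ τ) ^ n * (ρ τ)⁻¹ := by
      rw [← conj_pow]; congr 1; group
    rw [e, h, mul_one, mul_inv_cancel]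
  rcases rho_dichotomy_at hdet hρ hA₀ with h | h
  · refine Or.inl fun A hA σ hσ hσχ => ?_
    obtain ⟨τ, rfl⟩ := Gal.exists_smul_eq Nat.prime_three hA₀ hA
    refine hρc τ σ 3 (h _ ?_ (hχ τ σ hσχ))
    have h1 := Gal.conj_mem_inertia hσ τ⁻¹
    rwa [inv_smul_smul, inv_inv] at h1
  · refine Or.inr fun A hA σ hσ hσχ => ?_
    obtain ⟨τ, rfl⟩ := Gal.exists_smul_eq Nat.prime_three hA₀ hA
    refine hρc τ σ 4 (h _ ?_ (hχ τ σ hσχ))
    have h1 := Gal.conj_mem_decomposition hσ τ⁻¹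
    rwa [inv_smul_smul, inv_inv] at h1

end Fermat.Agent.ResidualThree
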