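import Fermat.Agent.ResidualThree.Galois.Fields

/-!
# The subgroups of the quaternion group in `GL₂(𝔽₃)`

The elements of `quatSubgroup` are `±1, ±i, ±j, ±ij`.  The cyclic groups `cycFour = ⟨i⟩` and
`cycJ = ⟨j⟩` meet in `pmOne = {±1}`; their indices in `GL₂(𝔽₃)` are `12, 12, 24`, and each step
`1 ⊆ pmOne ⊆ cycFour ⊆ quatSubgroup` has index two.  These steps cut out the tower of quadratic
extensions from which the Hecke character of order four is built.
-/

noncomputable section

namespace Fermat.Agent.ResidualThree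

local notation "G48" => GL (Fin 2) (ZMod 3)
local notation "M2" => Matrix (Fin 2) (Fin 2) (ZMod 3)

/-- The element `j = !![1, 1; 1, -1]` of order four. -/
def quatJ : G48 := ⟨!![1, 1; 1, -1], !![-1, -1; -1, 1], by decide, by decide⟩

theorem quatJ_sq : quatJ * quatJ = -1 := Units.ext (by decide)

/-- The cyclic group generated by `quatJ`. -/
def cycJ : Subgroup G48 := Subgroup.zpowers quatJ

/-- The elements of the cyclic group generated by an element of square `-1`. -/
theorem mem_zpowers_iff_of_sq {g : G48} (hg : g * g = -1) {x : G48} :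
    x ∈ Subgroup.zpowers g ↔ x = 1 ∨ x = g ∨ x = -1 ∨ x = -g := by
  have h4 := pow_four_of_sq_neg_one hg
  have h1 : g ∈ Subgroup.zpowers g := Subgroup.mem_zpowers g
  constructor
  · rintro ⟨n, rfl⟩
    show g ^ n = 1 ∨ g ^ n = g ∨ g ^ n = -1 ∨ g ^ n = -g
    rw [show g ^ n = g ^ (n % 4).toNat by
      rw [← zpow_natCast, Int.toNat_of_nonneg (Int.emod_nonneg n (by norm_num))]
      conv_lhs => rw [← Int.emod_add_mul_ediv n 4]
      rw [zpow_add, zpow_mul, show g ^ (4 : ℤ) = 1 from h4, one_zpow, mul_one]]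
    have hlt : (n % 4).toNat < 4 := by omega
    interval_cases (n % 4).toNat
    · exact Or.inl (pow_zero g)
    · exact Or.inr (Or.inl (pow_one g))
    · exact Or.inr (Or.inr (Or.inl (by rw [pow_two, hg])))
    · exact Or.inr (Or.inr (Or.inr (by rw [pow_succ, pow_two, hg, neg_one_mul])))
  · rintro (rfl | rfl | rfl | rfl)
    · exact one_mem _
    · exact h1
    · rw [← hg]; exact mul_mem h1 h1
    · rw [← neg_one_mul, ← hg]; exact mul_mem (mul_mem h1 h1) h1

theorem mem_cycFour {x : G48} :
    x ∈ cycFour ↔ x = 1 ∨ x = quatI ∨ x = -1 ∨ x = -quatI :=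
  mem_zpowers_iff_of_sq quatI_sq

theorem mem_cycJ {x : G48} : x ∈ cycJ ↔ x = 1 ∨ x = quatJ ∨ x = -1 ∨ x = -quatJ :=
  mem_zpowers_iff_of_sq quatJ_sq

/-- The six trace-zero elements of `SL₂(𝔽₃)`. -/
theorem quat_entries (a b c : ZMod 3) (h : -a * a - b * c = 1) :
    (a = 0 ∧ b = 1 ∧ c = -1) ∨ (a = 0 ∧ b = -1 ∧ c = 1) ∨ (a = 1 ∧ b = 1 ∧ c = 1) ∨
    (a = -1 ∧ b = -1 ∧ c = -1) ∨ (a = -1 ∧ b = 1 ∧ c = 1) ∨ (a = 1 ∧ b = -1 ∧ c = -1) := by
  revert a b c
  decide

/-- The eight elements `±1, ±i, ±j, ±ij` of the quaternion subgroup. -/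
theorem quat_cases {x : G48} (hx : x ∈ quatSubgroup) :
    x = 1 ∨ x = -1 ∨ x = quatI ∨ x = -quatI ∨ x = quatJ ∨ x = -quatJ ∨ x = quatI * quatJ ∨
      x = -(quatI * quatJ) := by
  obtain ⟨hd, ht | ht | ht⟩ := mem_quatSubgroup.1 hx
  · obtain ⟨e, hdet⟩ := eq_of_trace_det ht hd
    rcases quat_entries _ _ _ hdet with ⟨h1, h2, h3⟩ | ⟨h1, h2, h3⟩ | ⟨h1, h2, h3⟩ |
      ⟨h1, h2, h3⟩ | ⟨h1, h2, h3⟩ | ⟨h1, h2, h3⟩ <;> rw [h1, h2, h3] at e
    · right; right; left; exact Units.ext (e.trans (by decide))
    · right; right; right; left; exact Units.ext (e.trans (by decide))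
    · right; right; right; right; left; exact Units.ext (e.trans (by decide))
    · right; right; right; right; right; left; exact Units.ext (e.trans (by decide))
    · right; right; right; right; right; right; right; exact Units.ext (e.trans (by decide))
    · right; right; right; right; right; right; left; exact Units.ext (e.trans (by decide))
  · exact Or.inl (Units.ext ht)
  · exact Or.inr (Or.inl (Units.ext (by rw [ht, Units.val_neg, Units.val_one])))

/-- `cycFour` has index two in the quaternion subgroup. -/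
theorem mul_mem_cycFour {a b : G48} (ha : a ∈ quatSubgroup) (hb : b ∈ quatSubgroup)
    (ha' : a ∉ cycFour) (hb' : b ∉ cycFour) : a * b ∈ cycFour := by
  rw [mem_cycFour] at *
  rcases quat_cases ha with rfl | rfl | rfl | rfl | rfl | rfl | rfl | rfl <;>
    rcases quat_cases hb with rfl | rfl | rfl | rfl | rfl | rfl | rfl | rfl <;>
    first | exact absurd (by decide) ha' | exact absurd (by decide) hb' | decide

/-- `cycJ` has index two in the quaternion subgroup. -/
theorem mul_mem_cycJ {a b : G48} (ha : a ∈ quatSubgroup) (hb : b ∈ quatSubgroup)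
    (ha' : a ∉ cycJ) (hb' : b ∉ cycJ) : a * b ∈ cycJ := by
  rw [mem_cycJ] at *
  rcases quat_cases ha with rfl | rfl | rfl | rfl | rfl | rfl | rfl | rfl <;>
    rcases quat_cases hb with rfl | rfl | rfl | rfl | rfl | rfl | rfl | rfl <;>
    first | exact absurd (by decide) ha' | exact absurd (by decide) hb' | decide

theorem cycJ_le_quat : cycJ ≤ quatSubgroup := by
  rw [cycJ, Subgroup.zpowers_le, mem_quatSubgroup]
  refine ⟨?_, Or.inl ?_⟩ <;> decide

/-- `pmOne` has index two in `cycFour`. -/
theorem mul_mem_pmOne {a b : G48} (ha : a ∈ cycFour) (hb : b ∈ cycFour) (ha' : a ∉ pmOne)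
    (hb' : b ∉ pmOne) : a * b ∈ pmOne := by
  rw [mem_cycFour] at *
  rw [mem_pmOne] at *
  rcases ha with rfl | rfl | rfl | rfl <;> rcases hb with rfl | rfl | rfl | rfl <;>
    first | exact absurd (by decide) ha' | exact absurd (by decide) hb' | decide

/-- The two cyclic groups meet in `{±1}`. -/
theorem mem_cycJ_iff_of_cycFour {x : G48} (hx : x ∈ cycFour) : x ∈ cycJ ↔ x ∈ pmOne := by
  rw [mem_cycFour] at hx
  rw [mem_cycJ, mem_pmOne]
  rcases hx with rfl | rfl | rfl | rfl <;> decide

/-- Every element of the quaternion group other than `±1` has square `-1`. -/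
theorem sq_eq_neg_one_of_notMem {x : G48} (hx : x ∈ quatSubgroup) (hx' : x ∉ pmOne) :
    x ^ 2 = -1 := by
  obtain ⟨hd, ht | ht | ht⟩ := mem_quatSubgroup.1 hx
  · rw [pow_two]; exact sq_eq_neg_one hd ht
  · exact absurd (mem_pmOne.2 (Or.inl (Units.ext ht))) hx'
  · exact absurd
      (mem_pmOne.2 (Or.inr (Units.ext (by rw [ht, Units.val_neg, Units.val_one])))) hx'

theorem conj_eq_of_pmOne {x : G48} (hx : x ∈ pmOne) (c : G48) : c * x * c⁻¹ = x := by
  rcases mem_pmOne.1 hx with rfl | rfl <;> simp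

/-- An element of square `-1` has order four. -/
theorem orderOf_of_sq {g : G48} (hg : g * g = -1) : orderOf g = 4 := by
  have := orderOf_eq_prime_pow (p := 2) (n := 1) (x := g)
    (by rw [pow_one, pow_two, hg]; exact neg_one_ne_one_gl)
    (pow_four_of_sq_neg_one hg)
  exact this

theorem index_cycFour : cycFour.index = 12 := by
  have h := cycFour.index_mul_card
  rw [card_gl_three, cycFour, Nat.card_zpowers, orderOf_of_sq quatI_sq] at h
  rw [cycFour]
  omega

theorem index_cycJ : cycJ.index = 12 := by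
  have h := cycJ.index_mul_card
  rw [card_gl_three, cycJ, Nat.card_zpowers, orderOf_of_sq quatJ_sq] at h
  rw [cycJ]
  omega

theorem index_pmOne : pmOne.index = 24 := by
  have h := pmOne.index_mul_card
  have h2 : orderOf (-1 : G48) = 2 := orderOf_eq_prime neg_one_sq neg_one_ne_one_gl
  rw [card_gl_three, pmOne, Nat.card_zpowers, h2] at h
  rw [pmOne]
  omega

theorem index_bot_gl_three : (⊥ : Subgroup G48).index = 48 := by
  rw [Subgroup.index_bot, card_gl_three]

end Fermat.Agent.ResidualThree
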