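import Mathlib.FieldTheory.Galois.Infinite
import Mathlib.NumberTheory.NumberField.InfinitePlace.TotallyRealComplex
import Fermat.Prelude.Def_GaloisRep_ModThreeCyclotomic
import Fermat.Agent.Gal.Basic
import Fermat.Agent.ResidualThree.Galois.Group
import Fermat.Agent.ResidualThree.Orbital.Classes

/-!
# The quadratic field `K` and the cubic extension `L` cut out by `ρ`

For a continuous surjective `ρ : Gal(ℚ̄/ℚ) → GL₂(𝔽₃)` whose determinant is the mod 3 cyclotomic
character, the preimage of the quaternion subgroup fixes a totally complex Galois sextic field `L`.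
It contains the fixed field `K = ℚ(√-3)` of the kernel of the determinant and is a cyclic cubic
extension of it.  The modular form attached to `ρ` is first built over `L`.
-/

noncomputable section

open NumberField

namespace Fermat.Agent.ResidualThree

local notation "Qbar" => AlgebraicClosure ℚ
local notation "Γℚ" => (AlgebraicClosure ℚ ≃ₐ[ℚ] AlgebraicClosure ℚ)
local notation "G48" => GL (Fin 2) (ZMod 3)
local notation "M2" => Matrix (Fin 2) (Fin 2) (ZMod 3)

/-- The quaternion subgroup consists of the elements of determinant one killed by `4`. -/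
theorem mem_quat_iff_pow_four {g : G48} :
    g ∈ quatSubgroup ↔ Matrix.GeneralLinearGroup.det g = 1 ∧ g ^ 4 = 1 := by
  rw [det_eq_one_iff_mem_slThree]
  exact ⟨fun h => ⟨quatSubgroup_le_slThree h, pow_four_of_mem_quat h⟩,
    fun h => mem_quat_of_pow_four h.1 h.2⟩

/-- The entrywise form of `exists_pow_mul_mem_quat`. -/
theorem quat_transversal_aux (a b c d : ZMod 3) (h : a * d - b * c = 1) :
    (a + d = 0 ∨ (a = 1 ∧ b = 0 ∧ c = 0 ∧ d = 1) ∨ (a = -1 ∧ b = 0 ∧ c = 0 ∧ d = -1)) ∨
    (a + c + d = 0 ∨ (a + c = 1 ∧ b + d = 0 ∧ c = 0 ∧ d = 1) ∨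
      (a + c = -1 ∧ b + d = 0 ∧ c = 0 ∧ d = -1)) ∨
    (a - c + d = 0 ∨ (a - c = 1 ∧ b - d = 0 ∧ c = 0 ∧ d = 1) ∨
      (a - c = -1 ∧ b - d = 0 ∧ c = 0 ∧ d = -1)) := by
  revert a b c d
  decide

/-- An element of order three outside the quaternion subgroup. -/
def unipThree : G48 := ⟨!![1, 1; 0, 1], !![1, -1; 0, 1], by decide, by decide⟩

theorem unipThree_det : Matrix.GeneralLinearGroup.det unipThree = 1 := by
  rw [Units.ext_iff, Matrix.GeneralLinearGroup.val_det_apply]; decide

theorem unipThree_cube : unipThree ^ 3 = 1 := Units.ext (by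
  rw [Units.val_pow_eq_pow_val, Units.val_one]; decide)

/-- `unipThree` is outside the quaternion subgroup. -/
theorem unipThree_notMem : unipThree ∉ quatSubgroup := fun h => by
  have h1 := eq_one_of_cube_of_quat unipThree_cube h
  rw [Units.ext_iff, Units.val_one] at h1
  revert h1
  decide

/-- `SL₂(𝔽₃)` is the union of three cosets of the quaternion subgroup. -/
theorem exists_pow_mul_mem_quat {s : G48} (hs : Matrix.GeneralLinearGroup.det s = 1) :
    ∃ i : ℕ, unipThree ^ i * s ∈ quatSubgroup := by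
  have hs' : (s : M2).det = 1 := by
    rw [← Matrix.GeneralLinearGroup.val_det_apply, hs]; rfl
  have hmem : ∀ g : G48, (g : M2).det = 1 →
      ((g : M2) 0 0 + (g : M2) 1 1 = 0 ∨
        ((g : M2) 0 0 = 1 ∧ (g : M2) 0 1 = 0 ∧ (g : M2) 1 0 = 0 ∧ (g : M2) 1 1 = 1) ∨
        ((g : M2) 0 0 = -1 ∧ (g : M2) 0 1 = 0 ∧ (g : M2) 1 0 = 0 ∧ (g : M2) 1 1 = -1)) →
      g ∈ quatSubgroup := by
    intro g hg h
    refine mem_quatSubgroup.2 ⟨hg, ?_⟩
    rcases h with h | ⟨h1, h2, h3, h4⟩ | ⟨h1, h2, h3, h4⟩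
    · exact Or.inl (by rw [Matrix.trace_fin_two]; exact h)
    · exact Or.inr (Or.inl (by ext i j; fin_cases i <;> fin_cases j <;> simp [h1, h2, h3, h4]))
    · exact Or.inr (Or.inr (by ext i j; fin_cases i <;> fin_cases j <;> simp [h1, h2, h3, h4]))
  have hd : ∀ i : ℕ, ((unipThree ^ i * s : G48) : M2).det = 1 := fun i => by
    rw [Units.val_mul, Units.val_pow_eq_pow_val, Matrix.det_mul, Matrix.det_pow,
      show (unipThree : M2).det = 1 by decide, one_pow, one_mul, hs']
  have e1 : ((unipThree ^ 1 * s : G48) : M2) = !![(s : M2) 0 0 + (s : M2) 1 0,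
      (s : M2) 0 1 + (s : M2) 1 1; (s : M2) 1 0, (s : M2) 1 1] := by
    rw [pow_one, Units.val_mul]
    ext i j
    fin_cases i <;> fin_cases j <;> simp [unipThree, Matrix.mul_apply, Fin.sum_univ_two]
  have e2 : ((unipThree ^ 2 * s : G48) : M2) = !![(s : M2) 0 0 - (s : M2) 1 0,
      (s : M2) 0 1 - (s : M2) 1 1; (s : M2) 1 0, (s : M2) 1 1] := by
    rw [Units.val_mul, Units.val_pow_eq_pow_val,
      show (unipThree : M2) ^ 2 = !![1, -1; 0, 1] by decide]
    ext i j
    fin_cases i <;> fin_cases j <;> simp [Matrix.mul_apply, Fin.sum_univ_two, sub_eq_add_neg]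
  rw [Matrix.det_fin_two] at hs'
  rcases quat_transversal_aux _ _ _ _ hs' with h | h | h
  · exact ⟨0, by rw [pow_zero, one_mul]; exact hmem s (by rw [Matrix.det_fin_two]; exact hs') h⟩
  · exact ⟨1, hmem _ (hd 1) (by rw [e1]; simpa using h)⟩
  · exact ⟨2, hmem _ (hd 2) (by rw [e2]; simpa using h)⟩

/-- The kernel of the determinant on `GL₂(𝔽₃)` has index two. -/
theorem index_det_ker :
    ((Matrix.GeneralLinearGroup.det : G48 →* (ZMod 3)ˣ).ker).index = 2 := by
  rw [Subgroup.index_ker, MonoidHom.range_eq_top.mpr (fun u => ?_), Subgroup.card_top,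
    Nat.card_eq_fintype_card, ZMod.card_units]
  refine ⟨Matrix.GeneralLinearGroup.mkOfDetNeZero !![(u : ZMod 3), 0; 0, 1] ?_, Units.ext ?_⟩
  · rw [Matrix.det_fin_two_of, mul_one, mul_zero, sub_zero]; exact u.ne_zero
  · rw [Matrix.GeneralLinearGroup.val_det_apply]
    show (!![(u : ZMod 3), 0; 0, 1] : M2).det = _
    rw [Matrix.det_fin_two_of, mul_one, mul_zero, sub_zero]

/-- The quaternion subgroup has order eight. -/
theorem card_quatSubgroup : Nat.card quatSubgroup = 8 := by
  classical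
  let e : quatSubgroup ≃ {t : {t : ZMod 3 × ZMod 3 × ZMod 3 × ZMod 3 //
      t.1 * t.2.2.2 - t.2.1 * t.2.2.1 ≠ 0} //
      t.1.1 * t.1.2.2.2 - t.1.2.1 * t.1.2.2.1 = 1 ∧ (t.1.1 + t.1.2.2.2 = 0 ∨
        (t.1.1 = 1 ∧ t.1.2.1 = 0 ∧ t.1.2.2.1 = 0 ∧ t.1.2.2.2 = 1) ∨
        (t.1.1 = -1 ∧ t.1.2.1 = 0 ∧ t.1.2.2.1 = 0 ∧ t.1.2.2.2 = -1))} :=
    glEquivQuad.subtypeEquiv fun g => by
      rw [mem_quatSubgroup, Matrix.det_fin_two, Matrix.trace_fin_two, ← Matrix.ext_iff,
        ← Matrix.ext_iff]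
      simp [Fin.forall_fin_two, glEquivQuad, and_assoc]
  rw [Nat.card_congr e, Nat.card_eq_fintype_card]
  decide

/-- The quaternion subgroup has index six. -/
theorem index_quatSubgroup : quatSubgroup.index = 6 := by
  have h := quatSubgroup.index_mul_card
  rw [card_quatSubgroup, card_gl_three] at h
  omega

variable {ρ : Γℚ →* G48}

/-- The preimage of a subgroup `H` fixes a number field of degree the index of `H`. -/
theorem exists_field (hρ : Continuous ρ) (hsurj : Function.Surjective ρ) (H : Subgroup G48) :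
    ∃ (L : IntermediateField ℚ Qbar) (_ : NumberField L),
      L.fixingSubgroup = H.comap ρ ∧ Module.finrank ℚ L = H.index := by
  have hopen : IsOpen ((H.comap ρ : Subgroup Γℚ) : Set Γℚ) :=
    (isOpen_discrete _).preimage hρ
  let L : IntermediateField ℚ Qbar := IntermediateField.fixedField (H.comap ρ)
  have hfix : L.fixingSubgroup = H.comap ρ :=
    InfiniteGalois.fixingSubgroup_fixedField ⟨_, Subgroup.isClosed_of_isOpen _ hopen⟩
  have : FiniteDimensional ℚ L :=
    (InfiniteGalois.isOpen_iff_finite L).mp (by rw [hfix]; exact hopen)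
  refine ⟨L, NumberField.mk, hfix, ?_⟩
  rw [IntermediateField.finrank_eq_fixingSubgroup_index, hfix,
    Subgroup.index_comap_of_surjective _ hsurj]

/-- The sextic field fixed by the preimage of the quaternion subgroup. -/
theorem exists_cubicField (hρ : Continuous ρ) (hsurj : Function.Surjective ρ) :
    ∃ (L : IntermediateField ℚ Qbar) (_ : NumberField L),
      (∀ σ : Γℚ, σ ∈ L.fixingSubgroup ↔
        Matrix.GeneralLinearGroup.det (ρ σ) = 1 ∧ ρ σ ^ 4 = 1) ∧
      Module.finrank ℚ L = 6 := by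
  obtain ⟨L, hL, hfix, hrank⟩ := exists_field hρ hsurj quatSubgroup
  exact ⟨L, hL, fun σ => by rw [hfix, Subgroup.mem_comap, mem_quat_iff_pow_four],
    hrank.trans index_quatSubgroup⟩

/-- `L` is Galois over `ℚ`, the quaternion subgroup being normal. -/
theorem isGalois_cubicField {L : IntermediateField ℚ Qbar}
    (hL : ∀ σ : Γℚ, σ ∈ L.fixingSubgroup ↔
      Matrix.GeneralLinearGroup.det (ρ σ) = 1 ∧ ρ σ ^ 4 = 1) : IsGalois ℚ L := by
  have e : L.fixingSubgroup = quatSubgroup.comap ρ := by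
    ext σ; rw [hL, Subgroup.mem_comap, mem_quat_iff_pow_four]
  have h : L.fixingSubgroup.Normal := e ▸ Subgroup.Normal.comap inferInstance ρ
  have h' := (InfiniteGalois.normal_iff_isGalois L).mp h
  convert h' using 1
  exact Subsingleton.elim _ _

variable (hdet : ∀ σ : Γℚ, Matrix.GeneralLinearGroup.det (ρ σ) =
    WeierstrassCurve.modThreeCyclotomicChar σ)

include hdet

/-- `K` is contained in `L`. -/
theorem quadField_le_cubicField {K L : IntermediateField ℚ Qbar}
    (hK : ∀ σ : Γℚ, σ ∈ K.fixingSubgroup ↔ WeierstrassCurve.modThreeCyclotomicChar σ = 1)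
    (hL : ∀ σ : Γℚ, σ ∈ L.fixingSubgroup ↔
      Matrix.GeneralLinearGroup.det (ρ σ) = 1 ∧ ρ σ ^ 4 = 1) : K ≤ L := by
  rw [← InfiniteGalois.fixedField_fixingSubgroup L, IntermediateField.le_iff_le]
  intro σ hσ
  rw [hK, ← hdet]
  exact ((hL σ).1 hσ).1

/-- `L` is totally complex. -/
theorem isTotallyComplex_cubicField {L : IntermediateField ℚ Qbar}
    (hL : ∀ σ : Γℚ, σ ∈ L.fixingSubgroup ↔
      Matrix.GeneralLinearGroup.det (ρ σ) = 1 ∧ ρ σ ^ 4 = 1) : IsTotallyComplex L := by
  obtain ⟨ζ, hζ⟩ := HasEnoughRootsOfUnity.exists_primitiveRoot Qbar 3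
  have hζL : ζ ∈ L := by
    rw [← InfiniteGalois.fixedField_fixingSubgroup L, IntermediateField.mem_fixedField_iff]
    intro σ hσ
    have hχ : WeierstrassCurve.modThreeCyclotomicChar σ = 1 := by
      rw [← hdet]; exact ((hL σ).1 hσ).1
    have h3 : (hζ.isUnit (by norm_num)).unit ∈ rootsOfUnity 3 Qbar := by
      rw [mem_rootsOfUnity, Units.ext_iff]
      simpa using hζ.pow_eq_one
    have hspec : σ ζ =
        ζ ^ ((WeierstrassCurve.modThreeCyclotomicChar σ : (ZMod 3)ˣ) : ZMod 3).val := by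
      have h := modularCyclotomicCharacter.spec (L := Qbar) (n := 3)
        (IsAlgClosed.card_rootsOfUnity_eq Qbar 3) (σ : Qbar ≃+* Qbar) h3
      simpa using h
    rw [hspec, hχ]
    simp [ZMod.val_one]
  refine ⟨fun w => ?_⟩
  rw [InfinitePlace.isComplex_iff]
  intro hreal
  have hz : IsPrimitiveRoot (w.embedding ⟨ζ, hζL⟩) 3 :=
    (IsPrimitiveRoot.of_map_of_injective (f := L.val) (ζ := (⟨ζ, hζL⟩ : L)) hζ
      Subtype.val_injective).map_of_injective w.embedding.injective
  have h := hz.geom_sum_eq_zero (by norm_num)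
  simp only [Finset.sum_range_succ, Finset.sum_range_zero, pow_zero, pow_one, zero_add] at h
  have him : (w.embedding ⟨ζ, hζL⟩).im = 0 :=
    Complex.conj_eq_iff_im.mp (congrArg (fun f : L →+* ℂ => f ⟨ζ, hζL⟩) hreal)
  have hre := congrArg Complex.re h
  simp [pow_two, him] at hre
  nlinarith [sq_nonneg ((w.embedding ⟨ζ, hζL⟩).re + 1 / 2)]

/-- The automorphism of order three of `L` over `K`, with a lift to `Γℚ`. -/
theorem exists_cubicAut (hsurj : Function.Surjective ρ) {K L : IntermediateField ℚ Qbar}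
    (hK : ∀ σ : Γℚ, σ ∈ K.fixingSubgroup ↔ WeierstrassCurve.modThreeCyclotomicChar σ = 1)
    (hL : ∀ σ : Γℚ, σ ∈ L.fixingSubgroup ↔
      Matrix.GeneralLinearGroup.det (ρ σ) = 1 ∧ ρ σ ^ 4 = 1) :
    letI : Algebra K L :=
      (IntermediateField.inclusion (quadField_le_cubicField hdet hK hL)).toRingHom.toAlgebra
    ∃ (τ : Orbital.CubicAut K L) (g : Γℚ),
      g ∈ K.fixingSubgroup ∧ ρ g ∉ quatSubgroup ∧ ∀ x : L, ((τ.σ x : L) : Qbar) = g x := by
  let : Algebra K L :=
    (IntermediateField.inclusion (quadField_le_cubicField hdet hK hL)).toRingHom.toAlgebra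
  have hLfix : ∀ σ : Γℚ, σ ∈ L.fixingSubgroup ↔ ρ σ ∈ quatSubgroup := fun σ => by
    rw [hL, mem_quat_iff_pow_four]
  have := isGalois_cubicField hL
  obtain ⟨g, hg⟩ := hsurj unipThree
  have hgK : g ∈ K.fixingSubgroup := by rw [hK, ← hdet, hg, unipThree_det]
  let s : L ≃ₐ[ℚ] L := g.restrictNormal L
  have hs : ∀ x : L, ((s x : L) : Qbar) = g x := fun x => g.restrictNormal_commutes L x
  let σK : L ≃ₐ[K] L :=
    { s.toRingEquiv with
      commutes' := fun c => Subtype.ext ((hs _).trans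
        ((IntermediateField.mem_fixingSubgroup_iff _ _).mp hgK c c.2)) }
  have hσK : ∀ x : L, ((σK x : L) : Qbar) = g x := hs
  refine ⟨⟨σK, fun x => ?_, fun x hx => ?_, ?_⟩, g, hgK, by rw [hg]; exact unipThree_notMem, hσK⟩
  · refine Subtype.ext ?_
    rw [hσK, hσK, hσK]
    exact (IntermediateField.mem_fixingSubgroup_iff _ _).mp
      ((hLfix (g ^ 3)).2 (by rw [map_pow, hg, unipThree_cube]; exact one_mem _)) x x.2
  · have hgx : g x = (x : Qbar) := by rw [← hσK, hx]
    have hxK : (x : Qbar) ∈ K := by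
      rw [← InfiniteGalois.fixedField_fixingSubgroup K, IntermediateField.mem_fixedField_iff]
      intro σ hσ
      obtain ⟨i, hi⟩ := exists_pow_mul_mem_quat (s := ρ σ) (by rw [hdet]; exact (hK σ).1 hσ)
      have h1 : (g ^ i * σ) (x : Qbar) = x := (IntermediateField.mem_fixingSubgroup_iff _ _).mp
        ((hLfix _).2 (by rw [map_mul, map_pow, hg]; exact hi)) x x.2
      have h2 : g ^ i ∈ MulAction.stabilizer Γℚ (x : Qbar) :=
        pow_mem (MulAction.mem_stabilizer_iff.mpr hgx) i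
      rw [AlgEquiv.mul_apply] at h1
      exact (g ^ i).injective (h1.trans (MulAction.mem_stabilizer_iff.mp h2).symm)
    exact ⟨⟨x, hxK⟩, Subtype.ext rfl⟩
  · by_contra! hne
    refine unipThree_notMem ?_
    rw [← hg, ← hLfix, IntermediateField.mem_fixingSubgroup_iff]
    intro y hy
    rw [← hσK ⟨y, hy⟩, hne]

end Fermat.Agent.ResidualThree
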