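import Fermat.Agent.ResidualThree.Galois.FarFixed
import Fermat.Agent.ResidualThree.Galois.Image

/-!
# Inertia at `3` under the mod 3 representation

`IsCaseA W` says that some inertia group at `3` fixes a nonzero point of order three.  In that
case, for a semistable curve, inertia at `3` acts through the cyclotomic character: an inertia
element of determinant one acts trivially.  Otherwise no nonzero point is fixed.
-/

noncomputable section

namespace Fermat.Agent.ResidualThree

open WeierstrassCurve WeierstrassCurve.Affine.Point Fermat.Agent.Frey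
open scoped WeierstrassCurve.Affine Pointwise

local notation "Qbar" => AlgebraicClosure ℚ
local notation "GQ" => AlgebraicClosure ℚ ≃ₐ[ℚ] AlgebraicClosure ℚ
local notation "G48" => GL (Fin 2) (ZMod 3)
local notation "M2" => Matrix (Fin 2) (Fin 2) (ZMod 3)

variable {W : WeierstrassCurve ℤ} (hΔ : W.Δ ≠ 0)

/-- Some inertia group at `3` fixes a nonzero point of order three (case A); case B is its
negation, in which inertia at `3` fixes no nonzero point. -/
def IsCaseA (W : WeierstrassCurve ℤ) : Prop :=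
  ∃ A : ValuationSubring Qbar, A.LiesOverPrime 3 ∧
    ∃ x : Tors W 3, x ≠ 0 ∧ ∀ σ ∈ A.inertiaSubgroupIn ℚ, σ • x = x

/-- If one inertia group at `3` fixes a nonzero point, then each does. -/
theorem exists_fixed_of_isCaseA (h : IsCaseA W) {A : ValuationSubring Qbar}
    (hA : A.LiesOverPrime 3) :
    ∃ x : Tors W 3, x ≠ 0 ∧ ∀ σ ∈ A.inertiaSubgroupIn ℚ, σ • x = x := by
  obtain ⟨A₀, hA₀, x, hx, hfix⟩ := h
  obtain ⟨g, rfl⟩ := Gal.exists_smul_eq Nat.prime_three hA₀ hA
  refine ⟨g • x, fun e => hx ?_, fun σ hσ => ?_⟩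
  · rw [← inv_smul_smul g x, e, smul_zero]
  · have h1 := Gal.conj_mem_inertia hσ g⁻¹
    rw [inv_smul_smul, inv_inv] at h1
    have h2 := hfix _ h1
    rw [mul_smul, mul_smul, inv_smul_eq_iff] at h2
    exact h2

/-- Without `IsCaseA` no nonzero torsion point is fixed by inertia at `3`. -/
theorem eq_zero_of_not_isCaseA (h : ¬ IsCaseA W) (A : ValuationSubring Qbar)
    (hA : A.LiesOverPrime 3) (x : Tors W 3) (hx : ∀ σ ∈ A.inertiaSubgroupIn ℚ, σ • x = x) :
    x = 0 := by
  by_contra h0
  exact h ⟨A, hA, x, h0, hx⟩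

/-- An element fixing two independent points acts trivially on `E[3]`. -/
theorem rho_eq_one_of_two_fixed (σ : GQ) {x r : Tors W 3} (hx : x ≠ 0)
    (hr : r ∉ Submodule.span (ZMod 3) {x}) (h1 : σ • x = x) (h2 : σ • r = r) :
    rho hΔ σ = 1 := by
  rw [rho_eq_one_iff]
  intro z
  set N := Submodule.span (ZMod 3) {x} with hN
  have hbot : N ≠ ⊥ := fun e => hx (by simpa [hN] using e)
  have htop : N ≠ ⊤ := fun e => hr (e ▸ Submodule.mem_top)
  obtain ⟨a, ha⟩ := exists_smul_sub_mem hΔ hbot htop hr z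
  obtain ⟨b, hb⟩ := Submodule.mem_span_singleton.1 ha
  have hz : z = b • x + a • r := by rw [hb]; abel
  rw [hz, smul_add, smul_zmod_comm, smul_zmod_comm, h1, h2]

/-- If inertia at `3` fixes a point, it acts through the cyclotomic character. -/
theorem rho_inertia_three_of_isCaseA (hss : W.IsSemistableModel) (h : IsCaseA W)
    {A : ValuationSubring Qbar} (hA : A.LiesOverPrime 3) {σ : GQ}
    (hσ : σ ∈ A.inertiaSubgroupIn ℚ) (hd : (rho hΔ σ : M2).det = 1) : rho hΔ σ = 1 := by
  obtain ⟨x, hx0, hfix⟩ := exists_fixed_of_isCaseA h hA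
  obtain ⟨τ, hτ, hτd⟩ := exists_inertia_cyclotomic hA
  set m : M2 := ((rho hΔ τ : G48) : M2) with hm
  set v := (torsBasis hΔ).equivFun x with hv
  have hmd : m.det = -1 := by rw [hm, det_rho, hτd]
  have hv0 : v ≠ 0 := fun e =>
    hx0 ((torsBasis hΔ).equivFun.injective (by rw [← hv, e, _root_.map_zero]))
  have hmv : m.mulVec v = v := by rw [hm, hv, rho_mulVec, hfix τ hτ]
  -- `τ² = 1` on `E[3]`
  have hm2 : m * m = 1 := by
    have hch := sq_eq_of_det_neg_one hmd
    have ht : m.trace • v = 0 := by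
      have h := congrArg (fun n : M2 => n.mulVec v) hch
      simp only [← Matrix.mulVec_mulVec, Matrix.add_mulVec, Matrix.smul_mulVec, hmv,
        Matrix.one_mulVec] at h
      simpa using h
    rw [hch, (smul_eq_zero.1 ht).resolve_right hv0, zero_smul, zero_add]
  have hττ : ∀ z : Tors W 3, τ • (τ • z) = z := by
    intro z
    apply (torsBasis hΔ).equivFun.injective
    rw [← rho_mulVec, ← rho_mulVec, ← hm, Matrix.mulVec_mulVec, hm2, Matrix.one_mulVec]
  obtain ⟨z, hz⟩ : ∃ z : Tors W 3, τ • z ≠ z := by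
    by_contra hc
    push Not at hc
    have : rho hΔ τ = 1 := (rho_eq_one_iff hΔ τ).2 hc
    rw [hm, this, Units.val_one, Matrix.det_one] at hmd
    exact absurd hmd (by decide)
  set r := τ • z - z with hrdef
  have hr0 : r ≠ 0 := sub_ne_zero.2 hz
  have hτr : τ • r = -r := by rw [hrdef, smul_sub, hττ, neg_sub]
  have hW' := intCoeff_map W A (barCurve_eq W)
  have hfarr : Far (barCurve W) A r.1 := by
    have h3 := far_sub_sub W Nat.prime_three (Gal.intCast_mem_nonunits_iff Nat.prime_three hA) hΔ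
      (hss 3 Nat.prime_three) (barCurve_eq W) (inertiaLike hτ) (Affine.Point.map τ.toAlgHom)
      (map_spec τ) (by decide : Odd 3) (tors_nsmul z)
    have e : τ • r - r = r := by
      rw [hτr, sub_eq_iff_eq_add, neg_eq_iff_add_eq_zero, ← add_assoc,
        show r + r + r = ((3 : ℕ) : ZMod 3) • r by rw [Nat.cast_smul_eq_nsmul]; abel,
        ZMod.natCast_self, zero_smul]
    have e' : (τ • r - r : Tors W 3).1 = r.1 := by rw [e]
    rw [← e']
    exact h3
  have hrx : r ∉ Submodule.span (ZMod 3) {x} := by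
    intro hc
    obtain ⟨c, hc⟩ := Submodule.mem_span_singleton.1 hc
    have h1 : τ • r = r := by rw [← hc, smul_zmod_comm, hfix τ hτ]
    rw [hτr, neg_eq_iff_add_eq_zero, ← two_smul (ZMod 3)] at h1
    exact hr0 ((smul_eq_zero.1 h1).resolve_left (by decide))
  -- `σ` fixes `r` modulo the line of `x`, which contains no point reducing to `O`
  have hσx := hfix σ hσ
  set e := σ • r - r with hedef
  have hfare : Far (barCurve W) A e.1 := by
    refine (mem_farSubgroup hW').1 (sub_mem ((mem_farSubgroup hW').2 ?_)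
      ((mem_farSubgroup hW').2 hfarr))
    exact far_map (inertiaLike hσ) (Affine.Point.map σ.toAlgHom) (_root_.map_zero _) (map_spec σ)
      hfarr
  set N := Submodule.span (ZMod 3) {x} with hN
  have hbot : N ≠ ⊥ := fun h0 => hx0 (by simpa [hN] using h0)
  have htop : N ≠ ⊤ := fun h0 => hrx (h0 ▸ Submodule.mem_top)
  obtain ⟨b, hb⟩ := exists_smul_sub_mem hΔ hbot htop hrx e
  obtain ⟨a, ha⟩ := Submodule.mem_span_singleton.1 hb
  -- `b = 0` since `det = 1`
  have hb0 : b = 0 := by
    by_contra hb0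
    have he : e = a • x + b • r := by rw [ha]; abel
    have hσr : σ • r = a • x + (b + 1) • r := by
      rw [add_smul, one_smul, ← add_assoc, ← he, hedef]; abel
    set m' : M2 := ((rho hΔ σ : G48) : M2) with hm'
    set w := (torsBasis hΔ).equivFun r with hw
    have e1 : m'.mulVec v = v := by rw [hm', hv, rho_mulVec, hσx]
    have e2 : m'.mulVec w = a • v + (b + 1) • w := by
      rw [hm', hw, rho_mulVec, hσr, map_add, map_smul, map_smul, ← hv]
    have e10 := congrFun e1 0
    have e11 := congrFun e1 1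
    have e20 := congrFun e2 0
    have e21 := congrFun e2 1
    simp [Matrix.mulVec, dotProduct, Fin.sum_univ_two] at e10 e11 e20 e21
    rw [Matrix.det_fin_two] at hd
    change m' 0 0 * m' 1 1 - m' 0 1 * m' 1 0 = 1 at hd
    have h0 : b * (v 0 * w 1 - v 1 * w 0) = 0 := by
      linear_combination (v 0 * w 1 - v 1 * w 0) * hd - (m' 1 0 * w 0 + m' 1 1 * w 1) * e10
        + (m' 0 0 * w 0 + m' 0 1 * w 1) * e11 - v 0 * e21 + v 1 * e20
    rcases mul_eq_zero.1 h0 with h0 | h0
    · exact hb0 h0
    · have : ∀ p q s t : ZMod 3, (p ≠ 0 ∨ q ≠ 0) → p * t - q * s = 0 →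
          ∃ c : ZMod 3, s = c * p ∧ t = c * q := by decide
      obtain ⟨c, hc0, hc1⟩ := this (v 0) (v 1) (w 0) (w 1) (by
        by_contra hc
        push Not at hc
        exact hv0 (by ext i; fin_cases i <;> simp [hc.1, hc.2])) h0
      refine hrx (Submodule.mem_span_singleton.2 ⟨c, (torsBasis hΔ).equivFun.injective ?_⟩)
      rw [map_smul, ← hv, ← hw]
      ext i; fin_cases i <;> simp [hc0, hc1]
  rw [hb0, zero_smul, sub_zero] at ha
  have ha0 : a = 0 := by
    by_contra ha0
    refine not_far_of_fixed hA x hx0 hfix ?_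
    rw [← inv_smul_smul₀ ha0 x]
    exact far_smul a⁻¹ (ha ▸ hfare)
  rw [ha0, zero_smul] at ha
  exact rho_eq_one_of_two_fixed hΔ σ hx0 hrx hσx (sub_eq_zero.1 ha.symm)

end Fermat.Agent.ResidualThree
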